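import Mathlib.RingTheory.MvPowerSeries.Inverse
import Mathlib.RingTheory.MvPowerSeries.Substitution
import Mathlib.RingTheory.MvPowerSeries.Equiv
import Mathlib.RingTheory.Filtration
import Mathlib.RingTheory.MvPowerSeries.Rename
import Mathlib.Tactic.LinearCombination

/-!
# Ideals in power series rings in finitely many variables

Ideals of a Noetherian local power series ring are closed for the `X`-adic topology; substitutions
congruent modulo an ideal give congruent results; small facts about weighted components.
-/

set_option autoImplicit false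

noncomputable section

open MvPowerSeries Finsupp

namespace Fermat.Agent.LocalRibet

section General

variable {τ R : Type*} [CommRing R]

/-- A series whose coefficients vanish at all exponents avoiding `T` lies in the ideal spanned by
the variables in `T`. -/
theorem mem_span_X_image (T : Finset τ) (f : MvPowerSeries τ R)
    (h : ∀ d : τ →₀ ℕ, (∀ t ∈ T, d t = 0) → coeff d f = 0) :
    f ∈ Ideal.span ((fun t => (X t : MvPowerSeries τ R)) '' (T : Set τ)) := by
  classical
  induction T using Finset.induction generalizing f with
  | empty =>
    rw [show f = 0 from MvPowerSeries.ext fun d => by simpa using h d (by simp)]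
    exact Submodule.zero_mem _
  | insert t T ht ih =>
    set g : MvPowerSeries τ R := fun d => if d t = 0 then 0 else coeff d f with hg
    have hgc : ∀ d, coeff d g = if d t = 0 then 0 else coeff d f := fun d => rfl
    have hgd : X t ∣ g := X_dvd_iff.mpr fun d hd => by rw [hgc, if_pos hd]
    have h1 : f - g ∈ Ideal.span ((fun t => (X t : MvPowerSeries τ R)) '' (T : Set τ)) := by
      refine ih _ fun d hd => ?_
      rw [map_sub, hgc]
      split_ifs with hdt
      · rw [sub_zero]
        exact h d fun s hs => (Finset.mem_insert.mp hs).elim (fun e => e ▸ hdt) (hd s)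
      · rw [sub_self]
    have hsub := Ideal.span_mono (Set.image_mono (f := fun t => (X t : MvPowerSeries τ R))
      (Finset.coe_subset.mpr (Finset.subset_insert t T)))
    rw [show f = (f - g) + g by ring]
    refine Ideal.add_mem _ (hsub h1) ?_
    obtain ⟨q, hq⟩ := hgd
    rw [hq]
    exact Ideal.mul_mem_right q _ (Ideal.subset_span ⟨t, by simp, rfl⟩)

/-- A series vanishing below total degree `N` lies in the `N`-th power of the ideal of the
variables. -/
theorem mem_span_X_pow [Finite τ] (N : ℕ) (f : MvPowerSeries τ R)
    (h : ∀ d : τ →₀ ℕ, degree d < N → coeff d f = 0) :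
    f ∈ Ideal.span (Set.range (X : τ → MvPowerSeries τ R)) ^ N := by
  classical
  cases nonempty_fintype τ
  induction N generalizing f with
  | zero => simp
  | succ N ih =>
    have key : ∀ (T : Finset τ) (f : MvPowerSeries τ R),
        (∀ d : τ →₀ ℕ, degree d < N + 1 → coeff d f = 0) →
        (∀ d : τ →₀ ℕ, (∀ t ∈ T, d t = 0) → coeff d f = 0) →
        f ∈ Ideal.span (Set.range (X : τ → MvPowerSeries τ R)) ^ (N + 1) := by
      intro T
      induction T using Finset.induction with
      | empty =>
        intro f _ hT
        rw [show f = 0 from MvPowerSeries.ext fun d => by simpa using hT d (by simp)]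
        exact Submodule.zero_mem _
      | insert t T ht ihT =>
        intro f hN hT
        set g : MvPowerSeries τ R := fun d => if d t = 0 then 0 else coeff d f with hg
        have hgc : ∀ d, coeff d g = if d t = 0 then 0 else coeff d f := fun d => rfl
        set q : MvPowerSeries τ R := fun d => coeff (d + single t 1) f with hq
        have hqc : ∀ d, coeff d q = coeff (d + single t 1) f := fun d => rfl
        have hgq : g = X t * q := by
          ext d
          rw [hgc, X_def, coeff_monomial_mul]
          by_cases hd : d t = 0
          · rw [if_pos hd, if_neg]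
            intro hle
            have := hle t
            simp only [single_eq_same, hd] at this
            omega
          · have hle : single t 1 ≤ d := by
              intro s
              by_cases hst : s = t
              · subst hst; simp only [single_eq_same]; omega
              · rw [single_eq_of_ne hst]; exact Nat.zero_le _
            rw [if_neg hd, if_pos hle, one_mul, hqc, tsub_add_cancel_of_le hle]
        rw [show f = (f - g) + g by ring]
        refine Ideal.add_mem _ (ihT _ (fun d hd => ?_) fun d hd => ?_) ?_
        · rw [map_sub, hgc, hN d hd]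
          split_ifs <;> simp
        · rw [map_sub, hgc]
          split_ifs with hdt
          · rw [sub_zero]
            exact hT d fun s hs => (Finset.mem_insert.mp hs).elim (fun e => e ▸ hdt) (hd s)
          · rw [sub_self]
        · rw [hgq, pow_succ']
          refine Ideal.mul_mem_mul (Ideal.subset_span ⟨t, rfl⟩) (ih _ fun d hd => ?_)
          rw [hqc]
          refine hN _ ?_
          rw [map_add, degree_single]
          omega
    refine key Finset.univ f h fun d hd => h d ?_
    rw [show d = 0 from Finsupp.ext fun t => hd t (Finset.mem_univ t)]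
    simp

theorem span_range_X_le_maximalIdeal [IsLocalRing R] :
    Ideal.span (Set.range (X : τ → MvPowerSeries τ R)) ≤
      IsLocalRing.maximalIdeal (MvPowerSeries τ R) := by
  rw [Ideal.span_le]
  rintro x ⟨t, rfl⟩
  rw [SetLike.mem_coe, IsLocalRing.mem_maximalIdeal, mem_nonunits_iff, isUnit_iff_constantCoeff]
  simp

/-- Ideals are closed: it suffices to approximate to every order. -/
theorem mem_of_approx [Finite τ] [IsNoetherianRing R] [IsLocalRing R]
    (I : Ideal (MvPowerSeries τ R)) (f : MvPowerSeries τ R)
    (h : ∀ N : ℕ, ∃ g ∈ I, ∀ d : τ →₀ ℕ, degree d < N → coeff d f = coeff d g) : f ∈ I := by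
  by_cases hI : I = ⊤
  · rw [hI]; trivial
  have : Nontrivial (MvPowerSeries τ R ⧸ I) := Ideal.Quotient.nontrivial_iff.mpr hI
  have : IsNoetherianRing (MvPowerSeries τ R ⧸ I) :=
    isNoetherianRing_of_surjective _ _ (Ideal.Quotient.mk I) Ideal.Quotient.mk_surjective
  set J := (Ideal.span (Set.range (X : τ → MvPowerSeries τ R))).map (Ideal.Quotient.mk I) with hJ
  have : IsLocalRing (MvPowerSeries τ R ⧸ I) :=
    IsLocalRing.of_surjective' (Ideal.Quotient.mk I) Ideal.Quotient.mk_surjective
  have hle : J ≤ IsLocalRing.maximalIdeal _ := by
    rw [hJ, Ideal.map_le_iff_le_comap]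
    refine span_range_X_le_maximalIdeal.trans (le_of_eq ?_)
    exact (IsLocalRing.eq_maximalIdeal
      (Ideal.comap_isMaximal_of_surjective _ Ideal.Quotient.mk_surjective)).symm
  have hJne : J ≠ ⊤ := fun e => by
    rw [e, top_le_iff] at hle
    exact (IsLocalRing.maximalIdeal.isMaximal _).ne_top hle
  rw [← Ideal.Quotient.eq_zero_iff_mem]
  have hmem : Ideal.Quotient.mk I f ∈ ⨅ N : ℕ, J ^ N := by
    rw [Submodule.mem_iInf]
    intro N
    obtain ⟨g, hg, hd⟩ := h N
    have := Ideal.mem_map_of_mem (Ideal.Quotient.mk I)
      (mem_span_X_pow N (f - g) fun d hd' => by rw [map_sub, hd d hd', sub_self])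
    rwa [Ideal.map_pow, map_sub, Ideal.Quotient.eq_zero_iff_mem.mpr hg, sub_zero] at this
  rwa [Ideal.iInf_pow_eq_bot_of_isLocalRing J hJne, Ideal.mem_bot] at hmem

/-- Weighted components modulo high order. -/
theorem sub_sum_component_coeff [Finite τ] (w : τ → ℕ) (hw : ∀ t, w t ≤ 1) (N : ℕ)
    (f : MvPowerSeries τ R) (d : τ →₀ ℕ) (hd : degree d < N) :
    coeff d f = coeff d (∑ p ∈ Finset.range N, weightedHomogeneousComponent w p f) := by
  rw [map_sum, Finset.sum_eq_single (weight w d)]
  · rw [coeff_weightedHomogeneousComponent, if_pos rfl]
  · intro p _ hp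
    rw [coeff_weightedHomogeneousComponent, if_neg (Ne.symm hp)]
  · intro hp
    exfalso
    apply hp
    rw [Finset.mem_range]
    refine lt_of_le_of_lt ?_ hd
    rw [weight_apply, degree_apply]
    exact Finset.sum_le_sum fun t _ => by simpa using Nat.mul_le_mul_left (d t) (hw t)

/-- Multiplication by a series homogeneous of weight `q` shifts components. -/
theorem coeff_mul_of_homogeneous {w : τ → ℕ} {h : MvPowerSeries τ R} {q : ℕ}
    (hh : h.IsWeightedHomogeneous w q) (g g' : MvPowerSeries τ R) (d : τ →₀ ℕ)
    (hgg : ∀ e : τ →₀ ℕ, weight w e + q = weight w d → coeff e g = coeff e g') :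
    coeff d (g * h) = coeff d (g' * h) := by
  classical
  rw [coeff_mul, coeff_mul]
  refine Finset.sum_congr rfl fun x hx => ?_
  by_cases hx2 : coeff x.2 h = 0
  · rw [hx2, mul_zero, mul_zero]
  · rw [hgg x.1 (by rw [← hh hx2, ← map_add, Finset.mem_antidiagonal.mp hx])]

/-- Components of multiples of a homogeneous series. -/
theorem component_mul_of_homogeneous {w : τ → ℕ} {h : MvPowerSeries τ R} {q : ℕ}
    (hh : h.IsWeightedHomogeneous w q) (g : MvPowerSeries τ R) (p : ℕ) :
    weightedHomogeneousComponent w (p + q) (g * h) =
      weightedHomogeneousComponent w p g * h := by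
  classical
  ext d
  rw [coeff_weightedHomogeneousComponent]
  split_ifs with hd
  · refine coeff_mul_of_homogeneous hh g _ d fun e he => ?_
    rw [coeff_weightedHomogeneousComponent, if_pos (by omega)]
  · symm
    exact IsWeightedHomogeneous.coeff_eq_zero
      (IsWeightedHomogeneous.mul (isWeightedHomogeneous_weightedHomogeneousComponent w g p) hh) hd

end General

section Subst

variable {σ τ R S : Type*} [CommRing R] [CommRing S] [Algebra R S]

/-- Substitution by homogeneous series commutes with taking components. -/
theorem component_subst {w : σ → ℕ} {w' : τ → ℕ} {a : σ → MvPowerSeries τ S} (ha : HasSubst a)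
    (hwa : ∀ s, (a s).IsWeightedHomogeneous w' (w s)) (f : MvPowerSeries σ R) (p : ℕ) :
    weightedHomogeneousComponent w' p (subst a f) =
      subst a (weightedHomogeneousComponent w p f) := by
  classical
  have hprod : ∀ e : σ →₀ ℕ,
      (e.prod fun s n => a s ^ n).IsWeightedHomogeneous w' (weight w e) := by
    intro e
    induction e using Finsupp.induction with
    | zero =>
      intro d hd
      rw [Finsupp.prod_zero_index, coeff_one] at hd
      split_ifs at hd with h0
      · simp [h0]
      · exact absurd rfl hd
    | single_add s n e hs hn ih =>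
      rw [Finsupp.prod_add_index' (fun _ => pow_zero _) (fun _ _ _ => pow_add _ _ _),
        Finsupp.prod_single_index (by exact pow_zero _), map_add, weight_single]
      refine IsWeightedHomogeneous.mul ?_ ih
      clear hn hs ih e
      induction n with
      | zero =>
        intro d hd
        rw [pow_zero, coeff_one] at hd
        split_ifs at hd with h0
        · simp [h0]
        · exact absurd rfl hd
      | succ n ihn =>
        rw [pow_succ, succ_nsmul]
        exact ihn.mul (hwa s)
  ext d
  rw [coeff_weightedHomogeneousComponent, coeff_subst ha, coeff_subst ha]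
  split_ifs with hd
  · refine finsum_congr fun e => ?_
    rw [coeff_weightedHomogeneousComponent]
    by_cases he : weight w e = p
    · rw [if_pos he]
    · rw [if_neg he, IsWeightedHomogeneous.coeff_eq_zero (hprod e) (by omega), smul_zero, smul_zero]
  · symm
    refine finsum_eq_zero_of_forall_eq_zero fun e => ?_
    rw [coeff_weightedHomogeneousComponent]
    by_cases he : weight w e = p
    · rw [IsWeightedHomogeneous.coeff_eq_zero (hprod e) (by omega), smul_zero]
    · rw [if_neg he, zero_smul]

/-- Substitutions congruent modulo an ideal give congruent series. -/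
theorem subst_congr [Finite σ] [Finite τ] [IsNoetherianRing R] [IsLocalRing R]
    {a b : σ → MvPowerSeries τ R} (ha : ∀ s, constantCoeff (a s) = 0)
    (hb : ∀ s, constantCoeff (b s) = 0) (I : Ideal (MvPowerSeries τ R))
    (hab : ∀ s, a s - b s ∈ I) (f : MvPowerSeries σ R) : subst a f - subst b f ∈ I := by
  classical
  set φ := substAlgHom (R := R) (hasSubst_of_constantCoeff_zero ha) with hφ
  set ψ := substAlgHom (R := R) (hasSubst_of_constantCoeff_zero hb) with hψ
  set c := (MvPolynomial.aeval fun s => Ideal.Quotient.mk I (a s) :
    MvPolynomial σ R →ₐ[R] MvPowerSeries τ R ⧸ I)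
  have hpoly : ∀ g : MvPolynomial σ R, φ (g : MvPowerSeries σ R) - ψ g ∈ I := by
    intro g
    rw [← Ideal.Quotient.mk_eq_mk_iff_sub_mem, hφ, hψ, substAlgHom_coe, substAlgHom_coe]
    have e : (Ideal.Quotient.mkₐ R I).comp (MvPolynomial.aeval a) =
        (Ideal.Quotient.mkₐ R I).comp (MvPolynomial.aeval b) := by
      ext s
      simpa [Ideal.Quotient.mk_eq_mk_iff_sub_mem] using hab s
    exact AlgHom.congr_fun e g
  rw [← substAlgHom_apply (hasSubst_of_constantCoeff_zero ha),
    ← substAlgHom_apply (hasSubst_of_constantCoeff_zero hb)]
  have hpow : ∀ (χ : MvPowerSeries σ R →ₐ[R] MvPowerSeries τ R),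
      (∀ s, constantCoeff (χ (X s)) = 0) → ∀ N : ℕ,
      ∀ r ∈ Ideal.span (Set.range (X : σ → MvPowerSeries σ R)) ^ N,
      ∀ d : τ →₀ ℕ, degree d < N → coeff d (χ r) = 0 := by
    intro χ hχ N r hr d hd
    have hle : (Ideal.span (Set.range (X : σ → MvPowerSeries σ R)) ^ N).map χ ≤
        Ideal.span (Set.range (X : τ → MvPowerSeries τ R)) ^ N := by
      rw [Ideal.map_pow]
      refine Ideal.pow_right_mono ?_ N
      rw [Ideal.map_span, Ideal.span_le]
      rintro y ⟨_, ⟨s, rfl⟩, rfl⟩
      simpa using mem_span_X_pow 1 (χ (X s)) fun e he => by
        rw [show e = 0 by simpa [degree_eq_zero_iff] using he, coeff_zero_eq_constantCoeff_apply,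
          hχ s]
    refine coeff_of_lt_order ?_
    refine lt_of_lt_of_le (b := (N : ℕ∞)) (by exact_mod_cast hd) ?_
    refine le_order fun e he => ?_
    have hmem := hle (Ideal.mem_map_of_mem χ hr)
    have hN : ∀ (M : ℕ) (y : MvPowerSeries τ R),
        y ∈ Ideal.span (Set.range (X : τ → MvPowerSeries τ R)) ^ M →
        (M : ℕ∞) ≤ y.order := by
      intro M
      induction M with
      | zero => intro y _; simp
      | succ M ih =>
        intro y hy
        rw [pow_succ] at hy
        refine Submodule.mul_induction_on hy (fun u hu v hv => ?_)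
          fun u v hu hv => le_trans (le_min hu hv) min_order_le_add
        refine le_trans ?_ le_order_mul
        push_cast
        refine add_le_add (ih u hu) ?_
        induction hv using Submodule.span_induction with
        | mem z hz =>
          obtain ⟨t, rfl⟩ := hz
          refine le_order fun e he => ?_
          rw [show e = 0 by
            have : degree e < 1 := by exact_mod_cast he
            simpa [degree_eq_zero_iff] using this]
          simp
        | zero => simp
        | add z z' _ _ hz hz' => exact le_trans (le_min hz hz') min_order_le_add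
        | smul c z _ hz =>
          rw [smul_eq_mul]
          exact le_trans hz (le_trans le_add_self le_order_mul)
    exact coeff_of_lt_order (lt_of_lt_of_le he (hN N _ hmem))
  refine mem_of_approx I _ fun N => ?_
  set g := f.truncTotal N with hg
  refine ⟨φ g - ψ g, hpoly g, fun d hd => ?_⟩
  have hr : f - (g : MvPowerSeries σ R) ∈
      Ideal.span (Set.range (X : σ → MvPowerSeries σ R)) ^ N :=
    mem_span_X_pow N _ fun e he => by
      rw [map_sub, MvPolynomial.coeff_coe, hg, coeff_truncTotal _ he, sub_self]
  have h1 := hpow φ (fun s => by rw [hφ, substAlgHom_X]; exact ha s) N _ hr d hd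
  have h2 := hpow ψ (fun s => by rw [hψ, substAlgHom_X]; exact hb s) N _ hr d hd
  rw [map_sub, map_sub, sub_eq_zero] at h1 h2
  rw [map_sub, map_sub, h1, h2]

end Subst

end Fermat.Agent.LocalRibet
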