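import Mathlib.RingTheory.DiscreteValuationRing.Basic
import Mathlib.RingTheory.LocalRing.ResidueField.Basic
import Fermat.Agent.LocalRibet.PowerSeries

/-!
# Products of conics over a discrete valuation ring

The ideal generated by `a_i² + b_i c_i - γ_i` in a power series ring over a discrete valuation
ring is prime and does not contain the uniformiser, as soon as all `γ_i` are divisible by the
uniformiser.  The proof reduces modulo the uniformiser to the homogeneous polynomials
`a_i² + b_i c_i`, whose ideal is the kernel of an explicit parametrisation.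
-/

set_option autoImplicit false

noncomputable section

open MvPowerSeries Finsupp

namespace Fermat.Agent.LocalRibet

/-- Variables: a triple for every index, and further inert ones. -/
abbrev QVar (ι ρ : Type*) := (ι × Fin 3) ⊕ ρ

variable {ι ρ : Type*}

section Polynomial

variable {k : Type*} [CommRing k]

/-- The conic `a² + bc`. -/
def qPoly (i : ι) : MvPolynomial (QVar ι ρ) k :=
  MvPolynomial.X (Sum.inl (i, 0)) ^ 2 +
    MvPolynomial.X (Sum.inl (i, 1)) * MvPolynomial.X (Sum.inl (i, 2))

variable [DecidableEq ι] (J : Finset ι)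

/-- Exponent of the parametrisation `a ↦ BC`, `b ↦ B²`, `c ↦ -C²` at the indices of `J`. -/
def parExp : QVar ι ρ → (QVar ι ρ →₀ ℕ)
  | Sum.inl (i, j) =>
    if i ∈ J then
      ![single (Sum.inl (i, 1)) 1 + single (Sum.inl (i, 2)) 1, single (Sum.inl (i, 1)) 2,
        single (Sum.inl (i, 2)) 2] j
    else single (Sum.inl (i, j)) 1
  | Sum.inr x => single (Sum.inr x) 1

/-- Sign of the parametrisation. -/
def parSign : QVar ι ρ → k
  | Sum.inl (i, j) => if i ∈ J then ![1, 1, -1] j else 1
  | Sum.inr _ => 1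

/-- The parametrisation. -/
def par : MvPolynomial (QVar ι ρ) k →ₐ[k] MvPolynomial (QVar ι ρ) k :=
  MvPolynomial.aeval fun s => MvPolynomial.monomial (parExp J s) (parSign J s)

theorem par_qPoly {i : ι} (hi : i ∈ J) : par J (qPoly (ρ := ρ) i : MvPolynomial _ k) = 0 := by
  simp [qPoly, par, parExp, parSign, hi, MvPolynomial.monomial_pow, MvPolynomial.monomial_mul]

/-- Exponent of the image of a monomial. -/
def parDeg (e : QVar ι ρ →₀ ℕ) : QVar ι ρ →₀ ℕ := e.sum fun s n => n • parExp J s

theorem par_monomial (e : QVar ι ρ →₀ ℕ) (r : k) :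
    par J (MvPolynomial.monomial e r) =
      MvPolynomial.monomial (parDeg J e) (r * e.prod fun s n => parSign J s ^ n) := by
  rw [par, MvPolynomial.aeval_monomial, MvPolynomial.algebraMap_eq]
  simp_rw [MvPolynomial.monomial_pow]
  have hprod : ∀ (s : Finset (QVar ι ρ)) (f : QVar ι ρ → (QVar ι ρ →₀ ℕ)) (c : QVar ι ρ → k),
      ∏ a ∈ s, MvPolynomial.monomial (f a) (c a) =
        MvPolynomial.monomial (∑ a ∈ s, f a) (∏ a ∈ s, c a) := by
    intro s f c
    classical
    induction s using Finset.induction with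
    | empty => simp
    | insert a s ha ih =>
      rw [Finset.prod_insert ha, Finset.sum_insert ha, Finset.prod_insert ha, ih,
        MvPolynomial.monomial_mul]
  rw [Finsupp.prod, hprod, MvPolynomial.C_mul_monomial]
  rfl

/-- Exponents of degree at most one in each `a_i`, `i ∈ J`. -/
def IsReduced (e : QVar ι ρ →₀ ℕ) : Prop := ∀ i ∈ J, e (Sum.inl (i, 0)) ≤ 1

theorem parDeg_injective [Fintype ι] [Fintype ρ] {e e' : QVar ι ρ →₀ ℕ} (he : IsReduced J e)
    (he' : IsReduced J e') (h : parDeg J e = parDeg J e') : e = e' := by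
  classical
  have key : ∀ (f : QVar ι ρ →₀ ℕ) (t : QVar ι ρ),
      parDeg J f t = ∑ s, f s * parExp J s t := fun f t => by
    rw [parDeg, Finsupp.sum_apply, Finsupp.sum_fintype _ _ (fun _ => by simp)]
    simp
  have h1 : ∀ (f : QVar ι ρ →₀ ℕ), ∀ i, i ∈ J → parDeg J f (Sum.inl (i, 1)) =
      f (Sum.inl (i, 0)) + 2 * f (Sum.inl (i, 1)) ∧ parDeg J f (Sum.inl (i, 2)) =
      f (Sum.inl (i, 0)) + 2 * f (Sum.inl (i, 2)) := by
    intro f i hi
    rw [key, key, Fintype.sum_sum_type, Fintype.sum_sum_type, Fintype.sum_prod_type,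
      Fintype.sum_prod_type]
    constructor <;>
    · rw [Finset.sum_eq_single i (fun l _ hl => ?_) (by simp), Fin.sum_univ_three]
      · simp [parExp, hi, mul_comm]
      · by_cases hlJ : l ∈ J <;> simp [parExp, hlJ, Fin.sum_univ_three, hl]
  have h2 : ∀ (f : QVar ι ρ →₀ ℕ) (i : ι) (j : Fin 3), i ∉ J →
      parDeg J f (Sum.inl (i, j)) = f (Sum.inl (i, j)) := by
    intro f i j hi
    rw [key, Fintype.sum_sum_type, Fintype.sum_prod_type,
      Finset.sum_eq_single i (fun l _ hl => ?_) (by simp), Fin.sum_univ_three]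
    · simp only [parExp, hi, if_false]
      fin_cases j <;> simp
    · by_cases hlJ : l ∈ J <;> simp [parExp, hlJ, Fin.sum_univ_three, hl]
  have h3 : ∀ (f : QVar ι ρ →₀ ℕ) (x : ρ), parDeg J f (Sum.inr x) = f (Sum.inr x) := by
    intro f x
    rw [key, Fintype.sum_sum_type, Finset.sum_eq_zero (fun s _ => ?_), zero_add,
      Finset.sum_eq_single x (fun l _ hl => ?_) (by simp)]
    · simp [parExp]
    · simp [parExp, hl]
    · obtain ⟨i, j⟩ := s
      by_cases hlJ : i ∈ J
      · fin_cases j <;> simp [parExp, hlJ]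
      · simp [parExp, hlJ]
  ext (⟨i, j⟩ | x)
  · by_cases hi : i ∈ J
    · have hb := (h1 e i hi).1.symm.trans ((congrArg (· (Sum.inl (i, 1))) h).trans (h1 e' i hi).1)
      have hc := (h1 e i hi).2.symm.trans ((congrArg (· (Sum.inl (i, 2))) h).trans (h1 e' i hi).2)
      have := he i hi
      have := he' i hi
      fin_cases j <;> simp <;> omega
    · rw [← h2 e i j hi, h, h2 e' i j hi]
  · rw [← h3 e x, h, h3 e' x]

theorem exists_reduced (p : MvPolynomial (QVar ι ρ) k) :
    ∃ r : MvPolynomial (QVar ι ρ) k, (∀ e ∈ r.support, IsReduced J e) ∧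
      p - r ∈ Ideal.span ((qPoly (ρ := ρ) (k := k)) '' (J : Set ι)) := by
  classical
  induction p using MvPolynomial.induction_on' with
  | monomial e r =>
    induction hn : (∑ i ∈ J, e (Sum.inl (i, 0))) using Nat.strong_induction_on generalizing e r with
    | _ n ih =>
      by_cases he : IsReduced J e
      · refine ⟨MvPolynomial.monomial e r, fun e' he' => ?_, by simp⟩
        rw [Finset.mem_singleton.mp (MvPolynomial.support_monomial_subset he')]
        exact he
      · simp only [IsReduced, not_forall, not_le] at he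
        obtain ⟨i, hi, he⟩ := he
        set a : QVar ι ρ := Sum.inl (i, 0) with ha
        set e0 := e - single a 2 with he0
        have hle : single a 2 ≤ e := Finsupp.single_le_iff.mpr he
        have hsum : e = single a 2 + e0 := (add_tsub_cancel_of_le hle).symm
        set e1 := single (Sum.inl (i, 1) : QVar ι ρ) 1 + single (Sum.inl (i, 2)) 1 + e0 with he1
        obtain ⟨r', hr', hmem⟩ := ih (∑ l ∈ J, e1 (Sum.inl (l, 0))) (by
          rw [← hn]
          refine Finset.sum_lt_sum (fun l _ => ?_) ⟨i, hi, ?_⟩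
          · simp only [he1, he0, Finsupp.add_apply, Finsupp.tsub_apply]
            simp
          · simp only [he1, he0, Finsupp.add_apply, Finsupp.tsub_apply, ← ha]
            simp [ha]
            simp only [ha] at he
            omega) e1 (-r) rfl
        refine ⟨r', hr', ?_⟩
        have hq : (qPoly (ρ := ρ) i : MvPolynomial _ k) * MvPolynomial.monomial e0 r =
            MvPolynomial.monomial e r - MvPolynomial.monomial e1 (-r) := by
          rw [qPoly, ← ha, add_mul, MvPolynomial.X, MvPolynomial.X, MvPolynomial.X,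
            MvPolynomial.monomial_pow, MvPolynomial.monomial_mul, MvPolynomial.monomial_mul,
            MvPolynomial.monomial_mul, map_neg, sub_neg_eq_add, ← he1]
          simp [← hsum]
        rw [show MvPolynomial.monomial e r - r' = (qPoly (ρ := ρ) i : MvPolynomial _ k) *
            MvPolynomial.monomial e0 r + (MvPolynomial.monomial e1 (-r) - r') by rw [hq]; ring]
        exact Ideal.add_mem _ (Ideal.mul_mem_right _ _ (Ideal.subset_span ⟨i, hi, rfl⟩)) hmem
  | add p q hp hq =>
    obtain ⟨r, hr, hr'⟩ := hp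
    obtain ⟨s, hs, hs'⟩ := hq
    refine ⟨r + s, fun e he => ?_, by rw [add_sub_add_comm]; exact Ideal.add_mem _ hr' hs'⟩
    rcases Finset.mem_union.mp (MvPolynomial.support_add he) with h | h
    exacts [hr e h, hs e h]

/-- The kernel of the parametrisation is spanned by the conics. -/
theorem ker_par [IsDomain k] [Fintype ι] [Fintype ρ] :
    RingHom.ker (par (ρ := ρ) (k := k) J) =
      Ideal.span ((qPoly (ρ := ρ) (k := k)) '' (J : Set ι)) := by
  classical
  have hle : Ideal.span ((qPoly (ρ := ρ) (k := k)) '' (J : Set ι)) ≤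
      RingHom.ker (par (ρ := ρ) (k := k) J) :=
    Ideal.span_le.mpr fun x ⟨i, hi, hx⟩ => hx ▸ par_qPoly J hi
  refine le_antisymm (fun p hp => ?_) hle
  obtain ⟨r, hr, hmem⟩ := exists_reduced J p
  have hr0 : par J r = 0 := by
    have := hle hmem
    rw [RingHom.mem_ker, map_sub, RingHom.mem_ker.mp hp, zero_sub, neg_eq_zero] at this
    exact this
  suffices r = 0 by rwa [this, sub_zero] at hmem
  ext e
  by_contra hne
  rw [MvPolynomial.coeff_zero] at hne
  have hes : e ∈ r.support := MvPolynomial.mem_support_iff.mpr hne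
  have h0 := congrArg (MvPolynomial.coeff (parDeg J e)) hr0
  rw [MvPolynomial.as_sum r, map_sum, MvPolynomial.coeff_sum,
    Finset.sum_eq_single e (fun e' he' hne' => ?_) (fun h => absurd hes h),
    par_monomial, MvPolynomial.coeff_monomial, if_pos rfl, MvPolynomial.coeff_zero] at h0
  · rcases mul_eq_zero.mp h0 with h | h
    · exact hne h
    · obtain ⟨s, -, hs⟩ := Finset.prod_eq_zero_iff.mp h
      have : parSign (k := k) J s ≠ 0 := by
        obtain ⟨i, j⟩ | x := s
        · by_cases hi : i ∈ J
          · fin_cases j <;> simp [parSign, hi]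
          · simp [parSign, hi]
        · simp [parSign]
      exact this (pow_eq_zero_iff'.mp hs).1
  · rw [par_monomial, MvPolynomial.coeff_monomial, if_neg]
    exact fun h => hne' (parDeg_injective J (hr e' he') (hr e hes) h)

theorem isPrime_span_qPoly [IsDomain k] [Fintype ι] [Fintype ρ] :
    (Ideal.span ((qPoly (ρ := ρ) (k := k)) '' (J : Set ι))).IsPrime :=
  ker_par (ρ := ρ) (k := k) J ▸ RingHom.ker_isPrime _

theorem qPoly_notMem [IsDomain k] [Fintype ι] [Fintype ρ] {i : ι} (hi : i ∉ J) :
    (qPoly (ρ := ρ) i : MvPolynomial _ k) ∉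
      Ideal.span ((qPoly (ρ := ρ) (k := k)) '' (J : Set ι)) := by
  classical
  rw [← ker_par, RingHom.mem_ker]
  intro h
  have hne : single (Sum.inl (i, 1) : QVar ι ρ) 1 + single (Sum.inl (i, 2)) 1 ≠
      single (Sum.inl (i, 0)) 2 := fun e => by simpa using congrArg (· (Sum.inl (i, 0))) e
  have := congrArg (MvPolynomial.coeff (single (Sum.inl (i, 0) : QVar ι ρ) 2)) h
  simp [qPoly, par, parExp, parSign, hi, MvPolynomial.monomial_pow, MvPolynomial.monomial_mul,
    MvPolynomial.coeff_monomial, hne] at this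

end Polynomial

section Series

variable [Fintype ι] [Fintype ρ] [DecidableEq ι] {k : Type*} [CommRing k] [IsDomain k]

/-- The conic as a series. -/
def qSeries (i : ι) : MvPowerSeries (QVar ι ρ) k := (qPoly i : MvPolynomial (QVar ι ρ) k)

omit [Fintype ι] [Fintype ρ] [IsDomain k] in
theorem qSeries_homogeneous (i : ι) :
    (qSeries (ρ := ρ) i : MvPowerSeries _ k).IsWeightedHomogeneous 1 2 := by
  classical
  intro d hd
  rw [qSeries, MvPolynomial.coeff_coe, qPoly, MvPolynomial.X, MvPolynomial.X, MvPolynomial.X,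
    MvPolynomial.monomial_pow, MvPolynomial.monomial_mul, MvPolynomial.coeff_add,
    MvPolynomial.coeff_monomial, MvPolynomial.coeff_monomial] at hd
  split_ifs at hd with h1 h2 h2
  all_goals first
    | (subst h1; simp [weight_single])
    | (subst h2; simp [weight_single])
    | simp at hd

omit [IsDomain k] in
theorem mem_span_qSeries_iff (J : Finset ι) (f : MvPowerSeries (QVar ι ρ) k) :
    f ∈ Ideal.span ((qSeries (ρ := ρ) (k := k)) '' (J : Set ι)) ↔
      ∀ d : ℕ, ∃ p ∈ Ideal.span ((qPoly (ρ := ρ) (k := k)) '' (J : Set ι)),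
        weightedHomogeneousComponent 1 d f = (p : MvPowerSeries (QVar ι ρ) k) := by
  classical
  constructor
  · intro hf
    obtain ⟨g, hg⟩ := (Submodule.mem_span_image_finset_iff_exists_fun _).mp hf
    intro d
    rcases lt_or_ge d 2 with hd | hd
    · refine ⟨0, Submodule.zero_mem _, ?_⟩
      rw [← hg, map_sum, MvPolynomial.coe_zero]
      refine Finset.sum_eq_zero fun i _ => ?_
      ext e
      rw [coeff_weightedHomogeneousComponent, smul_eq_mul]
      split_ifs with he
      · rw [coeff_mul_of_homogeneous (qSeries_homogeneous i.1) (g i) 0 e (fun e' he' => by omega),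
          zero_mul]
      · rw [map_zero]
    · obtain ⟨d, rfl⟩ : ∃ d', d = d' + 2 := ⟨d - 2, by omega⟩
      refine ⟨∑ i : J, (weightedHomogeneousComponent 1 d (g i)).truncTotal (d + 1) *
        qPoly (i : ι), Ideal.sum_mem _ fun i _ =>
          Ideal.mul_mem_left _ _ (Ideal.subset_span ⟨i, i.2, rfl⟩), ?_⟩
      rw [← hg, map_sum, ← MvPolynomial.coeToMvPowerSeries.ringHom_apply, map_sum]
      refine Finset.sum_congr rfl fun i _ => ?_
      rw [smul_eq_mul, component_mul_of_homogeneous (qSeries_homogeneous i.1),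
        MvPolynomial.coeToMvPowerSeries.ringHom_apply, MvPolynomial.coe_mul]
      congr 1
      ext e
      rw [MvPolynomial.coeff_coe]
      by_cases he : degree e < d + 1
      · rw [coeff_truncTotal _ he]
      · rw [coeff_truncTotal_eq_zero _ (by omega), coeff_weightedHomogeneousComponent,
          if_neg (fun h => he (by rw [degree_eq_weight_one]; exact lt_of_eq_of_lt h (by omega)))]
  · intro h
    choose p hp hpf using h
    choose g hg using fun d => (Submodule.mem_span_image_finset_iff_exists_fun _).mp (hp d)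
    set G : J → MvPowerSeries (QVar ι ρ) k :=
      fun i e => MvPolynomial.coeff e (g (weight 1 e + 2) i) with hG
    suffices f = ∑ i : J, G i * qSeries (i : ι) by
      rw [this]
      exact Ideal.sum_mem _ fun i _ => Ideal.mul_mem_left _ _ (Ideal.subset_span ⟨i, i.2, rfl⟩)
    ext e
    have h1 : coeff e f = coeff e (weightedHomogeneousComponent 1 (weight 1 e) f) := by
      rw [coeff_weightedHomogeneousComponent, if_pos rfl]
    rw [h1, hpf, ← hg, map_sum, MvPolynomial.coeff_coe, MvPolynomial.coeff_sum]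
    refine Finset.sum_congr rfl fun i _ => ?_
    rw [smul_eq_mul, ← MvPolynomial.coeff_coe, MvPolynomial.coe_mul]
    exact (coeff_mul_of_homogeneous (qSeries_homogeneous i.1) (G i)
      ((g (weight 1 e) i : MvPolynomial (QVar ι ρ) k) : MvPowerSeries (QVar ι ρ) k) e
      fun e' he' => by rw [MvPolynomial.coeff_coe, ← he']; rfl).symm

theorem isPrime_span_qSeries (J : Finset ι) :
    (Ideal.span ((qSeries (ρ := ρ) (k := k)) '' (J : Set ι))).IsPrime := by
  classical
  set K := Ideal.span ((qSeries (ρ := ρ) (k := k)) '' (J : Set ι))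
  set P := Ideal.span ((qPoly (ρ := ρ) (k := k)) '' (J : Set ι))
  have hP : P.IsPrime := isPrime_span_qPoly J
  have hcoe : ∀ p ∈ P, (p : MvPowerSeries (QVar ι ρ) k) ∈ K := by
    intro p hp
    have : P.map (MvPolynomial.coeToMvPowerSeries.ringHom) ≤ K := by
      rw [Ideal.map_span, Ideal.span_le]
      rintro x ⟨y, ⟨i, hi, rfl⟩, rfl⟩
      exact Ideal.subset_span ⟨i, hi, rfl⟩
    exact this (Ideal.mem_map_of_mem _ hp)
  have hne : (1 : MvPowerSeries (QVar ι ρ) k) ∉ K := by
    rw [mem_span_qSeries_iff]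
    intro h
    obtain ⟨p, hp, hp1⟩ := h 0
    have h1 : weightedHomogeneousComponent 1 0 (1 : MvPowerSeries (QVar ι ρ) k) = 1 := by
      ext e
      rw [coeff_weightedHomogeneousComponent, coeff_one]
      split_ifs with h1 h2 h2
      · rfl
      · rfl
      · exact absurd (by simp [h2]) h1
      · rfl
    rw [h1, ← MvPolynomial.coe_one, MvPolynomial.coe_inj] at hp1
    exact hP.one_notMem (hp1 ▸ hp)
  refine ⟨fun h => hne (h ▸ Submodule.mem_top), fun {f g} hfg => ?_⟩
  by_contra! hcon
  have key : ∀ f, f ∉ K → ∃ (d : ℕ) (f1 : MvPowerSeries (QVar ι ρ) k), f - f1 ∈ K ∧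
      (d : ℕ∞) ≤ f1.weightedOrder 1 ∧
      ¬ ∃ p ∈ P, weightedHomogeneousComponent 1 d f1 = (p : MvPowerSeries (QVar ι ρ) k) := by
    intro f hf
    rw [mem_span_qSeries_iff] at hf
    push Not at hf
    refine ⟨Nat.find hf, f - ∑ d ∈ Finset.range (Nat.find hf),
      weightedHomogeneousComponent 1 d f, ?_, ?_, ?_⟩
    · rw [sub_sub_cancel]
      refine Ideal.sum_mem _ fun d hd => ?_
      have := Nat.find_min hf (Finset.mem_range.mp hd)
      push Not at this
      obtain ⟨p, hp, hpd⟩ := this
      exact hpd ▸ hcoe p hp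
    · refine le_weightedOrder 1 fun e he => ?_
      have he' : weight 1 e < Nat.find hf := by exact_mod_cast he
      rw [map_sub, map_sum, Finset.sum_eq_single (weight 1 e), coeff_weightedHomogeneousComponent,
        if_pos rfl, sub_self]
      · intro d _ hd
        rw [coeff_weightedHomogeneousComponent, if_neg (Ne.symm hd)]
      · intro h
        exact absurd (Finset.mem_range.mpr he') h
    · have hc : weightedHomogeneousComponent 1 (Nat.find hf)
          (f - ∑ d ∈ Finset.range (Nat.find hf), weightedHomogeneousComponent 1 d f) =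
          weightedHomogeneousComponent 1 (Nat.find hf) f := by
        ext e
        rw [coeff_weightedHomogeneousComponent, coeff_weightedHomogeneousComponent]
        split_ifs with he
        · rw [map_sub, map_sum, Finset.sum_eq_zero, sub_zero]
          intro d hd
          rw [coeff_weightedHomogeneousComponent, if_neg]
          rw [Finset.mem_range] at hd
          omega
        · rfl
      rw [hc]
      intro ⟨p, hp, hpd⟩
      exact Nat.find_spec hf p hp hpd
  obtain ⟨a, f1, hf1, hfo, hfP⟩ := key f hcon.1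
  obtain ⟨b, g1, hg1, hgo, hgP⟩ := key g hcon.2
  have h11 : f1 * g1 ∈ K := by
    rw [show f1 * g1 = f * g - ((f - f1) * g + f1 * (g - g1)) by ring]
    exact Ideal.sub_mem _ hfg
      (Ideal.add_mem _ (Ideal.mul_mem_right _ _ hf1) (Ideal.mul_mem_left _ _ hg1))
  obtain ⟨p, hp, hpab⟩ := (mem_span_qSeries_iff J _).mp h11 (a + b)
  rw [weightedHomogeneousComponent_mul_of_le_weightedOrder hfo hgo] at hpab
  have hco : ∀ (d : ℕ) (f : MvPowerSeries (QVar ι ρ) k),
      weightedHomogeneousComponent 1 d f =
        ((weightedHomogeneousComponent 1 d f).truncTotal (d + 1) :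
          MvPolynomial (QVar ι ρ) k) := by
    intro d f
    ext e
    rw [MvPolynomial.coeff_coe]
    by_cases he : degree e < d + 1
    · rw [coeff_truncTotal _ he]
    · rw [coeff_truncTotal_eq_zero _ (by omega), coeff_weightedHomogeneousComponent,
        if_neg (fun h => he (by rw [degree_eq_weight_one]; exact lt_of_eq_of_lt h (by omega)))]
  rw [hco a f1, hco b g1, ← MvPolynomial.coe_mul, MvPolynomial.coe_inj] at hpab
  rcases hP.mem_or_mem (hpab ▸ hp) with h | h
  · exact hfP ⟨_, h, hco a f1⟩
  · exact hgP ⟨_, h, hco b g1⟩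

theorem qSeries_notMem (J : Finset ι) {i : ι} (hi : i ∉ J) :
    (qSeries (ρ := ρ) i : MvPowerSeries _ k) ∉
      Ideal.span ((qSeries (ρ := ρ) (k := k)) '' (J : Set ι)) := by
  classical
  rw [mem_span_qSeries_iff]
  intro h
  obtain ⟨p, hp, hpi⟩ := h 2
  rw [← isWeightedHomogeneous_iff_eq_weightedHomogeneousComponent.mp (qSeries_homogeneous i),
    qSeries, MvPolynomial.coe_inj] at hpi
  exact qPoly_notMem J hi (hpi ▸ hp)

end Series

section DVR

variable [Fintype ι] [Fintype ρ] [DecidableEq ι]
variable {O : Type*} [CommRing O] [IsDomain O] [IsDiscreteValuationRing O]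

/-- The conic `a² + bc - γ`. -/
def hSeries (γ : ι → O) (i : ι) : MvPowerSeries (QVar ι ρ) O :=
  X (Sum.inl (i, 0)) ^ 2 + X (Sum.inl (i, 1)) * X (Sum.inl (i, 2)) - C (γ i)

/-- Reduction modulo the uniformiser. -/
abbrev red (τ : Type*) : MvPowerSeries τ O →+* MvPowerSeries τ (IsLocalRing.ResidueField O) :=
  MvPowerSeries.map (IsLocalRing.residue O)

theorem red_surjective (τ : Type*) : Function.Surjective (red (O := O) τ) := fun f =>
  ⟨fun d => (IsLocalRing.residue_surjective (coeff d f)).choose, MvPowerSeries.ext fun d => by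
    exact (IsLocalRing.residue_surjective (coeff d f)).choose_spec⟩

/-- Reduction kills exactly the multiples of the uniformizer. -/
theorem red_eq_zero_iff {τ : Type*} {ϖ : O} (hϖ : Irreducible ϖ) (f : MvPowerSeries τ O) :
    red τ f = 0 ↔ C ϖ ∣ f := by
  constructor
  · intro h
    have hd : ∀ d, ϖ ∣ coeff d f := fun d => by
      rw [← Ideal.mem_span_singleton, ← hϖ.maximalIdeal_eq, ← IsLocalRing.residue_eq_zero_iff,
        ← coeff_map, h, map_zero]
    choose q hq using hd
    let q' : MvPowerSeries τ O := q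
    exact ⟨q', MvPowerSeries.ext fun d => by rw [coeff_C_mul]; exact hq d⟩
  · rintro ⟨g, rfl⟩
    rw [map_mul, map_C, (IsLocalRing.residue_eq_zero_iff ϖ).mpr
      (hϖ.maximalIdeal_eq ▸ Ideal.mem_span_singleton_self ϖ), map_zero, zero_mul]

/-- The ideal of the `a² + bc - γ` is prime and does not contain the uniformiser. -/
theorem isPrime_span_hSeries {ϖ : O} (hϖ : Irreducible ϖ) (γ : ι → O) (hγ : ∀ i, ϖ ∣ γ i)
    (J : Finset ι) :
    (Ideal.span ((hSeries (ρ := ρ) γ) '' (J : Set ι))).IsPrime ∧
      C ϖ ∉ Ideal.span ((hSeries (ρ := ρ) γ) '' (J : Set ι)) := by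
  classical
  set k := IsLocalRing.ResidueField O
  have hred : ∀ i, red (QVar ι ρ) (hSeries γ i) = qSeries (k := k) i := by
    intro i
    have h0 : IsLocalRing.residue O (γ i) = 0 := by
      rw [IsLocalRing.residue_eq_zero_iff, hϖ.maximalIdeal_eq, Ideal.mem_span_singleton]
      exact hγ i
    simp [hSeries, qSeries, qPoly, h0, map_X, map_C]
  have hmap : ∀ (J : Finset ι) (x : MvPowerSeries (QVar ι ρ) O),
      red _ x ∈ Ideal.span ((qSeries (ρ := ρ) (k := k)) '' (J : Set ι)) →
      ∃ q, x - C ϖ * q ∈ Ideal.span ((hSeries (ρ := ρ) γ) '' (J : Set ι)) := by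
    intro J x hx
    have himg : Ideal.span ((qSeries (ρ := ρ) (k := k)) '' (J : Set ι)) =
        (Ideal.span ((hSeries (ρ := ρ) γ) '' (J : Set ι))).map (red _) := by
      rw [Ideal.map_span, ← Set.image_comp]
      exact congrArg _ (Set.image_congr fun i _ => (hred i).symm)
    rw [himg, Ideal.mem_map_iff_of_surjective _ (red_surjective _)] at hx
    obtain ⟨y, hy, hyx⟩ := hx
    obtain ⟨q, hq⟩ := (red_eq_zero_iff hϖ (x - y)).mp (by rw [map_sub, hyx, sub_self])
    exact ⟨q, by rwa [← hq, sub_sub_cancel]⟩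
  have hfwd : ∀ (J : Finset ι) (x : MvPowerSeries (QVar ι ρ) O),
      x ∈ Ideal.span ((hSeries (ρ := ρ) γ) '' (J : Set ι)) →
      red _ x ∈ Ideal.span ((qSeries (ρ := ρ) (k := k)) '' (J : Set ι)) := by
    intro J x hx
    have := Ideal.mem_map_of_mem (red _) hx
    rwa [Ideal.map_span, ← Set.image_comp, Function.comp_def,
      Set.image_congr (fun i _ => hred i)] at this
  have hreg : ∀ (J : Finset ι) (x : MvPowerSeries (QVar ι ρ) O),
      C ϖ * x ∈ Ideal.span ((hSeries (ρ := ρ) γ) '' (J : Set ι)) →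
      x ∈ Ideal.span ((hSeries (ρ := ρ) γ) '' (J : Set ι)) := by
    intro J
    induction J using Finset.induction with
    | empty =>
      intro x hx
      simp only [Finset.coe_empty, Set.image_empty, Ideal.span_empty, Ideal.mem_bot] at hx ⊢
      refine (mul_eq_zero.mp hx).resolve_left fun h => hϖ.ne_zero ?_
      simpa using congrArg constantCoeff h
    | insert i J hi ih =>
      intro x hx
      rw [Finset.coe_insert, Set.image_insert_eq, Ideal.mem_span_insert] at hx ⊢
      obtain ⟨q, z, hz, hxz⟩ := hx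
      have hq : red _ q ∈ Ideal.span ((qSeries (ρ := ρ) (k := k)) '' (J : Set ι)) := by
        refine ((isPrime_span_qSeries J).mem_or_mem ?_).resolve_right (qSeries_notMem J hi)
        have h1 := congrArg (red (QVar ι ρ)) hxz
        rw [map_mul, (red_eq_zero_iff hϖ (C ϖ)).mpr dvd_rfl, zero_mul, map_add, map_mul,
          hred] at h1
        rw [eq_neg_of_add_eq_zero_left h1.symm]
        exact Submodule.neg_mem _ (hfwd J z hz)
      obtain ⟨q', hq'⟩ := hmap J q hq
      refine ⟨q', x - q' * hSeries γ i, ih _ ?_, by ring⟩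
      rw [show C ϖ * (x - q' * hSeries γ i) = (q - C ϖ * q') * hSeries γ i + z by
        linear_combination hxz]
      exact Ideal.add_mem _ (Ideal.mul_mem_right _ _ hq') hz
  set I := Ideal.span ((hSeries (ρ := ρ) γ) '' (J : Set ι))
  have h1 : (1 : MvPowerSeries (QVar ι ρ) O) ∉ I := fun h =>
    (isPrime_span_qSeries (ρ := ρ) (k := k) J).one_notMem (by
      have := hfwd J 1 h
      rwa [map_one] at this)
  have hϖI : C ϖ ∉ I := fun h => h1 (hreg J 1 (by rwa [mul_one]))
  refine ⟨⟨fun h => h1 (h ▸ Submodule.mem_top), fun {x y} hxy => ?_⟩, hϖI⟩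
  have : Nontrivial (MvPowerSeries (QVar ι ρ) O ⧸ I) :=
    Ideal.Quotient.nontrivial_iff.mpr fun h => h1 (h ▸ Submodule.mem_top)
  have : IsNoetherianRing (MvPowerSeries (QVar ι ρ) O ⧸ I) :=
    isNoetherianRing_of_surjective _ _ (Ideal.Quotient.mk I) Ideal.Quotient.mk_surjective
  have : IsLocalRing (MvPowerSeries (QVar ι ρ) O ⧸ I) :=
    IsLocalRing.of_surjective' (Ideal.Quotient.mk I) Ideal.Quotient.mk_surjective
  have key : ∀ x, x ∉ I → ∃ (n : ℕ) (x' : MvPowerSeries (QVar ι ρ) O), x - C ϖ ^ n * x' ∈ I ∧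
      red _ x' ∉ Ideal.span ((qSeries (ρ := ρ) (k := k)) '' (J : Set ι)) := by
    intro x hx
    by_contra! hno
    apply hx
    have hall : ∀ n : ℕ, ∃ x', x - C ϖ ^ n * x' ∈ I := by
      intro n
      induction n with
      | zero => exact ⟨x, by simp⟩
      | succ n ihn =>
        obtain ⟨x', hx'⟩ := ihn
        obtain ⟨q, hq⟩ := hmap J x' (hno n x' hx')
        refine ⟨q, ?_⟩
        rw [show x - C ϖ ^ (n + 1) * q = (x - C ϖ ^ n * x') + C ϖ ^ n * (x' - C ϖ * q) by ring]
        exact Ideal.add_mem _ hx' (Ideal.mul_mem_left _ _ hq)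
    have hne : Ideal.span {Ideal.Quotient.mk I (C ϖ)} ≠ ⊤ := by
      rw [Ne, Ideal.span_singleton_eq_top]
      intro hu
      obtain ⟨y, hy⟩ := hu.exists_right_inv
      obtain ⟨y, rfl⟩ := Ideal.Quotient.mk_surjective y
      rw [← map_mul, ← map_one (Ideal.Quotient.mk I), Ideal.Quotient.eq] at hy
      have := hfwd J _ hy
      rw [map_sub, map_mul, (red_eq_zero_iff hϖ (C ϖ)).mpr dvd_rfl, zero_mul, map_one,
        zero_sub] at this
      exact (isPrime_span_qSeries (ρ := ρ) (k := k) J).one_notMem (by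
        simpa using Submodule.neg_mem _ this)
    rw [← Ideal.Quotient.eq_zero_iff_mem]
    have hmem : Ideal.Quotient.mk I x ∈ ⨅ n : ℕ, Ideal.span {Ideal.Quotient.mk I (C ϖ)} ^ n := by
      rw [Submodule.mem_iInf]
      intro n
      obtain ⟨x', hx'⟩ := hall n
      rw [(Ideal.Quotient.mk_eq_mk_iff_sub_mem _ _).mpr hx', map_mul, map_pow,
        Ideal.span_singleton_pow,
        Ideal.mem_span_singleton]
      exact dvd_mul_right _ _
    rwa [Ideal.iInf_pow_eq_bot_of_isLocalRing _ hne, Ideal.mem_bot] at hmem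
  by_contra! hcon
  obtain ⟨m, x', hx', hxr⟩ := key x hcon.1
  obtain ⟨n, y', hy', hyr⟩ := key y hcon.2
  have hpow : ∀ (n : ℕ) (z : MvPowerSeries (QVar ι ρ) O), C ϖ ^ n * z ∈ I → z ∈ I := by
    intro n
    induction n with
    | zero => intro z hz; simpa using hz
    | succ n ihn =>
      intro z hz
      rw [pow_succ, mul_assoc] at hz
      exact hreg J z (ihn _ hz)
  have hxy' : x' * y' ∈ I := by
    refine hpow (m + n) _ ?_
    rw [show C ϖ ^ (m + n) * (x' * y') = x * y -
      ((x - C ϖ ^ m * x') * y + C ϖ ^ m * x' * (y - C ϖ ^ n * y')) by ring]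
    exact Ideal.sub_mem _ hxy
      (Ideal.add_mem _ (Ideal.mul_mem_right _ _ hx') (Ideal.mul_mem_left _ _ hy'))
  have := hfwd J _ hxy'
  rw [map_mul] at this
  exact ((isPrime_span_qSeries J).mem_or_mem this).elim hxr hyr

end DVR

end Fermat.Agent.LocalRibet
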