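import Mathlib.RingTheory.Ideal.Height
import Mathlib.RingTheory.Ideal.KrullsHeightTheorem
import Mathlib.RingTheory.MvPowerSeries.NoZeroDivisors
import Fermat.Agent.LocalRibet.Quadric

/-!
# The non-minimal local ring at exceptional primes: its components

For each index there are variables `a, b, c` (tame generator), `u, v, w` (Frobenius), with the
relations `a² + bc = γ` and the `2 × 2` minors of the matrix with rows `(a, b, c)`, `(u, v, w)`.
When every `γ` is a nonzero multiple of the uniformiser, all primes avoiding the uniformiser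
contain one prime `genericPrime γ`, which is contained in `unramPrime`, the prime `(ϖ, a, b, c)`.
-/

set_option autoImplicit false

noncomputable section

open MvPowerSeries Finsupp

namespace Fermat.Agent.LocalRibet

/-- Six variables for every index, and further inert ones. -/
abbrev LVar (ι σ : Type*) := (ι × Fin 6) ⊕ σ

variable {ι σ : Type*} {O : Type*} [CommRing O]

/-- The variable `a`. -/
def va (i : ι) : MvPowerSeries (LVar ι σ) O := X (Sum.inl (i, 0))
/-- The variable `b`. -/
def vb (i : ι) : MvPowerSeries (LVar ι σ) O := X (Sum.inl (i, 1))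
/-- The variable `c`. -/
def vc (i : ι) : MvPowerSeries (LVar ι σ) O := X (Sum.inl (i, 2))
/-- The variable `u`. -/
def vu (i : ι) : MvPowerSeries (LVar ι σ) O := X (Sum.inl (i, 3))
/-- The variable `v`. -/
def vv (i : ι) : MvPowerSeries (LVar ι σ) O := X (Sum.inl (i, 4))
/-- The variable `w`. -/
def vw (i : ι) : MvPowerSeries (LVar ι σ) O := X (Sum.inl (i, 5))

/-- `a² + bc - γ`. -/
def hRel (γ : O) (i : ι) : MvPowerSeries (LVar ι σ) O := va i ^ 2 + vb i * vc i - C γ
/-- The minor `av - bu`. -/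
def minor₀ (i : ι) : MvPowerSeries (LVar ι σ) O := va i * vv i - vb i * vu i
/-- The minor `aw - cu`. -/
def minor₁ (i : ι) : MvPowerSeries (LVar ι σ) O := va i * vw i - vc i * vu i
/-- The minor `bw - cv`. -/
def minor₂ (i : ι) : MvPowerSeries (LVar ι σ) O := vb i * vw i - vc i * vv i

/-- All the relations. -/
def relIdeal (γ : ι → O) : Ideal (MvPowerSeries (LVar ι σ) O) :=
  Ideal.span (Set.range (fun i => hRel (γ i) i) ∪ Set.range minor₀ ∪ Set.range minor₁ ∪
    Set.range minor₂)

/-- The defining relation lies in the relation ideal. -/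
theorem rel_mem (γ : ι → O) (i : ι) : hRel (γ i) i ∈ relIdeal (σ := σ) γ ∧
    minor₀ i ∈ relIdeal (σ := σ) γ ∧ minor₁ i ∈ relIdeal (σ := σ) γ ∧
    minor₂ i ∈ relIdeal (σ := σ) γ :=
  ⟨Ideal.subset_span (by simp), Ideal.subset_span (by simp), Ideal.subset_span (by simp),
    Ideal.subset_span (by simp)⟩

/-- Criterion to contain the relation ideal. -/
theorem relIdeal_le {γ : ι → O} {q : Ideal (MvPowerSeries (LVar ι σ) O)}
    (h : ∀ i, hRel (γ i) i ∈ q ∧ minor₀ i ∈ q ∧ minor₁ i ∈ q ∧ minor₂ i ∈ q) :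
    relIdeal γ ≤ q := by
  rw [relIdeal, Ideal.span_le]
  rintro x (((⟨i, rfl⟩ | ⟨i, rfl⟩) | ⟨i, rfl⟩) | ⟨i, rfl⟩)
  exacts [(h i).1, (h i).2.1, (h i).2.2.1, (h i).2.2.2]

/-- Series vanishing on the coordinate subspace `t = 0`, `t ∈ T`. -/
def killIdeal {τ : Type*} (T : Finset τ) : Ideal (MvPowerSeries τ O) :=
  RingHom.ker (killCompl (R := O) (Function.Embedding.subtype fun t => t ∉ T))

/-- Membership of `killIdeal` by coefficients. -/
theorem mem_killIdeal {τ : Type*} {T : Finset τ} {f : MvPowerSeries τ O} :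
    f ∈ killIdeal T ↔ ∀ d : τ →₀ ℕ, (∀ t ∈ T, d t = 0) → coeff d f = 0 := by
  rw [killIdeal, RingHom.mem_ker]
  constructor
  · intro h d hd
    obtain ⟨x, rfl⟩ : d ∈ Set.range (embDomain (Function.Embedding.subtype fun t => t ∉ T)) := by
      rw [mem_range_embDomain_iff]
      intro t ht
      exact ⟨⟨t, fun htT => (Finsupp.mem_support_iff.mp ht) (hd t htT)⟩, rfl⟩
    rw [← coeff_killCompl, h, map_zero]
  · intro h
    ext x
    rw [coeff_killCompl, map_zero]
    exact h _ fun t ht => embDomain_of_notMem_range _ _ _ fun ⟨⟨s, hs⟩, e⟩ => by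
      have e' : s = t := e
      exact hs (e' ▸ ht)

/-- `killIdeal` is prime over a domain. -/
theorem isPrime_killIdeal [IsDomain O] {τ : Type*} (T : Finset τ) :
    (killIdeal (O := O) T).IsPrime := by
  have := NoZeroDivisors.to_isDomain (MvPowerSeries {t // t ∉ T} O)
  rw [killIdeal]
  exact RingHom.ker_isPrime _

/-- A prime strictly above `killIdeal T` has height more than the cardinality of `T`. -/
theorem card_lt_height [IsDomain O] {τ : Type*} [DecidableEq τ] (T : Finset τ)
    (P : Ideal (MvPowerSeries τ O)) [P.IsPrime] (h : killIdeal T < P) :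
    (T.card : ℕ∞) + 1 ≤ P.height := by
  induction T using Finset.induction generalizing P with
  | empty =>
    have := isPrime_killIdeal (O := O) (∅ : Finset τ)
    refine le_trans ?_ (Ideal.height_add_one_le_of_lt_of_isPrime h)
    simp
  | insert t T ht ih =>
    have := isPrime_killIdeal (O := O) (insert t T)
    refine le_trans ?_ (Ideal.height_add_one_le_of_lt_of_isPrime h)
    gcongr
    rw [Finset.card_insert_of_notMem ht, Nat.cast_add, Nat.cast_one]
    refine ih _ (lt_of_le_of_ne (fun f hf => ?_) fun e => ?_)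
    · rw [mem_killIdeal] at hf ⊢
      exact fun d hd => hf d fun s hs => hd s (Finset.mem_insert_of_mem hs)
    · have hX : (X t : MvPowerSeries τ O) ∈ killIdeal (insert t T) := by
        rw [mem_killIdeal]
        intro d hd
        classical
        rw [coeff_X, if_neg]
        rintro rfl
        simpa using hd t (Finset.mem_insert_self t T)
      rw [← e, mem_killIdeal] at hX
      classical
      have := hX (single t 1) fun s hs => single_eq_of_ne fun hst => ht (hst ▸ hs)
      rw [coeff_X, if_pos rfl] at this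
      exact one_ne_zero this

variable [IsDomain O] [IsDiscreteValuationRing O]

/-- The surviving variables on the unramified component. -/
def unramEmb (ι σ : Type*) : (ι × Fin 3) ⊕ σ ↪ LVar ι σ :=
  ⟨Sum.map (Prod.map id (Fin.natAdd 3)) id,
    Sum.map_injective.mpr ⟨Function.injective_id.prodMap
      (fun x y h => Fin.ext (by simpa [Fin.ext_iff] using h)), Function.injective_id⟩⟩

theorem unramEmb_inl (i : ι) (j : Fin 3) :
    unramEmb ι σ (Sum.inl (i, j)) = Sum.inl (i, Fin.natAdd 3 j) := by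
  simp [unramEmb]

theorem unramEmb_inr (s : σ) : unramEmb ι σ (Sum.inr s) = Sum.inr s := by
  simp [unramEmb]

/-- Restriction to the unramified component of the special fibre. -/
def toUnram (ι σ O : Type*) [CommRing O] [IsDomain O] [IsDiscreteValuationRing O] :
    MvPowerSeries (LVar ι σ) O →+*
      MvPowerSeries ((ι × Fin 3) ⊕ σ) (IsLocalRing.ResidueField O) :=
  (killCompl (unramEmb ι σ)).toRingHom.comp (red (LVar ι σ))

/-- The prime `(ϖ, a, b, c)`. -/
def unramPrime (ι σ O : Type*) [CommRing O] [IsDomain O] [IsDiscreteValuationRing O] :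
    Ideal (MvPowerSeries (LVar ι σ) O) :=
  RingHom.ker (toUnram ι σ O)

instance : (unramPrime ι σ O).IsPrime :=
  haveI := NoZeroDivisors.to_isDomain
    (MvPowerSeries ((ι × Fin 3) ⊕ σ) (IsLocalRing.ResidueField O))
  RingHom.ker_isPrime _

theorem toUnram_X (s : (ι × Fin 3) ⊕ σ) :
    toUnram ι σ O (X (unramEmb ι σ s)) = X s := by
  simp [toUnram, map_X]

theorem vu_notMem (i : ι) : (vu i : MvPowerSeries (LVar ι σ) O) ∉ unramPrime ι σ O := by
  rw [unramPrime, RingHom.mem_ker,
    show (vu i : MvPowerSeries (LVar ι σ) O) = X (unramEmb ι σ (Sum.inl (i, 0))) by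
      rw [unramEmb_inl]; rfl,
    toUnram_X]
  intro h
  simpa using congrArg (coeff (single (Sum.inl (i, 0) : (ι × Fin 3) ⊕ σ) 1)) h

/-- `u² + vw` does not vanish on the unramified component. -/
theorem quad_notMem (i : ι) :
    (vu i ^ 2 + vv i * vw i : MvPowerSeries (LVar ι σ) O) ∉ unramPrime ι σ O := by
  classical
  rw [unramPrime, RingHom.mem_ker, map_add, map_pow, map_mul,
    show (vu i : MvPowerSeries (LVar ι σ) O) = X (unramEmb ι σ (Sum.inl (i, 0))) by
      rw [unramEmb_inl]; rfl,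
    show (vv i : MvPowerSeries (LVar ι σ) O) = X (unramEmb ι σ (Sum.inl (i, 1))) by
      rw [unramEmb_inl]; rfl,
    show (vw i : MvPowerSeries (LVar ι σ) O) = X (unramEmb ι σ (Sum.inl (i, 2))) by
      rw [unramEmb_inl]; rfl,
    toUnram_X, toUnram_X, toUnram_X]
  intro h
  have hne : single (Sum.inl (i, 0) : (ι × Fin 3) ⊕ σ) 2 ≠
      single (Sum.inl (i, 1)) 1 + single (Sum.inl (i, 2)) 1 := fun e => by
    simpa using congrArg (· (Sum.inl (i, 0))) e
  have h1 := congrArg (coeff (single (Sum.inl (i, 0) : (ι × Fin 3) ⊕ σ) 2)) h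
  rw [map_add, coeff_X_pow, if_pos rfl, X_def, X_def, monomial_mul_monomial, coeff_monomial,
    if_neg hne, add_zero, map_zero] at h1
  exact one_ne_zero h1

/-- The uniformizer lies in the unramified prime. -/
theorem C_mem_unramPrime {ϖ : O} (hϖ : Irreducible ϖ) :
    (C ϖ : MvPowerSeries (LVar ι σ) O) ∈ unramPrime ι σ O := by
  rw [unramPrime, RingHom.mem_ker, toUnram, RingHom.comp_apply,
    (red_eq_zero_iff hϖ (C ϖ)).mpr dvd_rfl, map_zero]

theorem rel_mem_unramPrime {ϖ : O} (hϖ : Irreducible ϖ) (i : ι) :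
    va i ∈ unramPrime ι σ O ∧ vb i ∈ unramPrime ι σ O ∧ vc i ∈ unramPrime ι σ O ∧
      ∀ γ : O, ϖ ∣ γ → (C γ : MvPowerSeries (LVar ι σ) O) ∈ unramPrime ι σ O := by
  have hk : ∀ j : Fin 6, (j : ℕ) < 3 →
      (X (Sum.inl (i, j)) : MvPowerSeries (LVar ι σ) O) ∈ unramPrime ι σ O := by
    intro j hj
    rw [unramPrime, RingHom.mem_ker, toUnram, RingHom.comp_apply]
    simp only [red, map_X, AlgHom.toRingHom_eq_coe, RingHom.coe_coe]
    refine killCompl_X_eq_zero ?_
    rintro ⟨(⟨i', j'⟩ | s), hs⟩ <;> simp [unramEmb] at hs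
    obtain ⟨-, rfl⟩ := hs
    simp at hj
  refine ⟨hk 0 (by simp), hk 1 (by simp), hk 2 (by simp), fun γ ⟨r, hr⟩ => ?_⟩
  rw [hr, map_mul]
  exact Ideal.mul_mem_right _ _ (C_mem_unramPrime hϖ)

section Finite

variable [Fintype ι] [Fintype σ]

/-- Criterion to contain the unramified prime. -/
theorem unramPrime_le {ϖ : O} (hϖ : Irreducible ϖ) {q : Ideal (MvPowerSeries (LVar ι σ) O)}
    (hq : C ϖ ∈ q) (hv : ∀ i, va i ∈ q ∧ vb i ∈ q ∧ vc i ∈ q) : unramPrime ι σ O ≤ q := by
  classical
  intro f hf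
  set T : Finset (LVar ι σ) :=
    (Finset.univ : Finset (ι × Fin 3)).image fun x => Sum.inl (x.1, Fin.castAdd 3 x.2) with hT
  have hdvd : ∀ d : LVar ι σ →₀ ℕ, (∀ t ∈ T, d t = 0) → ϖ ∣ coeff d f := by
    intro d hd
    obtain ⟨x, rfl⟩ : d ∈ Set.range (embDomain (unramEmb ι σ)) := by
      rw [mem_range_embDomain_iff]
      rintro (⟨i, j⟩ | s) ht
      · rw [Finset.mem_coe, Finsupp.mem_support_iff] at ht
        obtain ⟨j', rfl⟩ | ⟨j', rfl⟩ : (∃ j' : Fin 3, j = Fin.castAdd 3 j') ∨
            ∃ j' : Fin 3, j = Fin.natAdd 3 j' := by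
          rcases lt_or_ge (j : ℕ) 3 with h | h
          · exact Or.inl ⟨⟨j, h⟩, Fin.ext rfl⟩
          · exact Or.inr ⟨⟨j - 3, by omega⟩, Fin.ext (by simp; omega)⟩
        · exact absurd (hd _ (Finset.mem_image.mpr ⟨(i, j'), Finset.mem_univ _, rfl⟩)) ht
        · exact ⟨Sum.inl (i, j'), unramEmb_inl i j'⟩
      · exact ⟨Sum.inr s, unramEmb_inr s⟩
    rw [← Ideal.mem_span_singleton, ← hϖ.maximalIdeal_eq, ← IsLocalRing.residue_eq_zero_iff,
      ← coeff_map, ← coeff_killCompl]
    have h0 : killCompl (unramEmb ι σ) (red _ f) = 0 := hf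
    rw [h0, map_zero]
  choose r hr using hdvd
  let g : MvPowerSeries (LVar ι σ) O :=
    fun d => if h : ∀ t ∈ T, d t = 0 then r d h else 0
  have hgc : ∀ d, coeff d g = if h : ∀ t ∈ T, d t = 0 then r d h else 0 := fun d => rfl
  rw [show f = C ϖ * g + (f - C ϖ * g) by ring]
  refine Ideal.add_mem _ (Ideal.mul_mem_right _ _ hq) ?_
  refine Ideal.span_le.mpr ?_ (mem_span_X_image T (f - C ϖ * g) fun d hd => by
    rw [map_sub, coeff_C_mul, hgc, dif_pos hd, ← hr d hd, sub_self])
  rintro x ⟨t, ht, rfl⟩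
  rw [Finset.mem_coe, hT, Finset.mem_image] at ht
  obtain ⟨⟨i, j⟩, -, rfl⟩ := ht
  fin_cases j
  exacts [(hv i).1, (hv i).2.1, (hv i).2.2]

omit [Fintype σ] in
theorem three_mul_card_lt_height_unramPrime {ϖ : O} (hϖ : Irreducible ϖ) :
    ((3 * Fintype.card ι : ℕ) : ℕ∞) + 1 ≤ (unramPrime ι σ O).height := by
  classical
  set T : Finset (LVar ι σ) :=
    (Finset.univ : Finset (ι × Fin 3)).image fun x => Sum.inl (x.1, Fin.castAdd 3 x.2) with hT
  have hinj : Function.Injective
      fun x : ι × Fin 3 => (Sum.inl (x.1, Fin.castAdd 3 x.2) : LVar ι σ) := by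
    intro x y h
    simp only [Sum.inl.injEq, Prod.mk.injEq] at h
    exact Prod.ext h.1 (Fin.castAdd_injective 3 3 h.2)
  have hc : T.card = 3 * Fintype.card ι := by
    rw [hT, Finset.card_image_of_injective _ hinj, Finset.card_univ, Fintype.card_prod,
      Fintype.card_fin, mul_comm]
  rw [← hc]
  refine card_lt_height T _ (lt_of_le_of_ne (fun f hf => ?_) fun e => ?_)
  · rw [mem_killIdeal] at hf
    rw [unramPrime, RingHom.mem_ker, toUnram, RingHom.comp_apply]
    ext x
    simp only [AlgHom.toRingHom_eq_coe, RingHom.coe_coe, coeff_killCompl, red, coeff_map, map_zero]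
    rw [hf _ fun t ht => ?_, map_zero]
    rw [hT, Finset.mem_image] at ht
    obtain ⟨⟨i, j⟩, -, rfl⟩ := ht
    refine embDomain_of_notMem_range _ _ _ ?_
    rintro ⟨(⟨i', j'⟩ | s), hs⟩ <;> simp [unramEmb, Fin.ext_iff] at hs
    omega
  · have h1 := C_mem_unramPrime (ι := ι) (σ := σ) hϖ
    rw [← e, mem_killIdeal] at h1
    have := h1 0 (fun t _ => rfl)
    rw [coeff_zero_eq_constantCoeff_apply, constantCoeff_C] at this
    exact hϖ.ne_zero this

/-- The unramified component is not a component of the relations. -/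
theorem exists_prime_below_unramPrime {ϖ : O} (hϖ : Irreducible ϖ) (γ : ι → O)
    (hγ : ∀ i, ϖ ∣ γ i) :
    ∃ Q : Ideal (MvPowerSeries (LVar ι σ) O), Q.IsPrime ∧ relIdeal γ ≤ Q ∧
      Q ≤ unramPrime ι σ O ∧ C ϖ ∉ Q := by
  classical
  have hle : relIdeal γ ≤ unramPrime ι σ O := relIdeal_le fun i => by
    obtain ⟨ha, hb, hc, hC⟩ := rel_mem_unramPrime (σ := σ) hϖ i
    exact ⟨Ideal.sub_mem _ (Ideal.add_mem _ (Ideal.pow_mem_of_mem _ ha 2 (by norm_num))
        (Ideal.mul_mem_right _ _ hb)) (hC _ (hγ i)),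
      Ideal.sub_mem _ (Ideal.mul_mem_right _ _ ha) (Ideal.mul_mem_right _ _ hb),
      Ideal.sub_mem _ (Ideal.mul_mem_right _ _ ha) (Ideal.mul_mem_right _ _ hc),
      Ideal.sub_mem _ (Ideal.mul_mem_right _ _ hb) (Ideal.mul_mem_right _ _ hc)⟩
  obtain ⟨Q, hQ, hQle⟩ := Ideal.exists_minimalPrimes_le hle
  have := hQ.isPrime
  refine ⟨Q, hQ.isPrime, hQ.1.2, hQle, fun hϖQ => ?_⟩
  have hC : ∀ i, (C (γ i) : MvPowerSeries (LVar ι σ) O) ∈ Q := fun i => by
    obtain ⟨r, hr⟩ := hγ i
    rw [hr, map_mul]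
    exact Ideal.mul_mem_right _ _ hϖQ
  -- `Q` contains `a, b, c`, hence is the unramified component
  have hQeq : Q = unramPrime ι σ O := by
    refine le_antisymm hQle (unramPrime_le hϖ hϖQ fun i => ?_)
    obtain ⟨r₀, r₁, r₂, r₃⟩ := rel_mem (σ := σ) γ i
    have q₀ : va i ^ 2 + vb i * vc i ∈ Q := by
      have := Ideal.add_mem Q (hQ.1.2 r₀) (hC i)
      rwa [hRel, sub_add_cancel] at this
    have m₀ := hQ.1.2 r₁
    have m₁ := hQ.1.2 r₂
    have m₂ := hQ.1.2 r₃
    have ht : vu i ^ 2 + vv i * vw i ∉ Q := fun h => quad_notMem i (hQle h)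
    refine ⟨hQ.isPrime.mem_of_pow_mem 2 ((hQ.isPrime.mem_or_mem ?_).resolve_right ht),
      hQ.isPrime.mem_of_pow_mem 2 ((hQ.isPrime.mem_or_mem ?_).resolve_right ht),
      hQ.isPrime.mem_of_pow_mem 2 ((hQ.isPrime.mem_or_mem ?_).resolve_right ht)⟩
    · rw [show (va i ^ 2 * (vu i ^ 2 + vv i * vw i) : MvPowerSeries (LVar ι σ) O) =
          vu i ^ 2 * (va i ^ 2 + vb i * vc i) +
          minor₀ i * (va i * vw i) + vb i * vu i * minor₁ i by
        simp only [minor₀, minor₁]; ring]
      exact Ideal.add_mem _ (Ideal.add_mem _ (Ideal.mul_mem_left _ _ q₀)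
        (Ideal.mul_mem_right _ _ m₀)) (Ideal.mul_mem_left _ _ m₁)
    · rw [show (vb i ^ 2 * (vu i ^ 2 + vv i * vw i) : MvPowerSeries (LVar ι σ) O) =
          vv i ^ 2 * (va i ^ 2 + vb i * vc i) +
          minor₀ i * -(vb i * vu i + va i * vv i) + vb i * vv i * minor₂ i by
        simp only [minor₀, minor₂]; ring]
      exact Ideal.add_mem _ (Ideal.add_mem _ (Ideal.mul_mem_left _ _ q₀)
        (Ideal.mul_mem_right _ _ m₀)) (Ideal.mul_mem_left _ _ m₂)
    · rw [show (vc i ^ 2 * (vu i ^ 2 + vv i * vw i) : MvPowerSeries (LVar ι σ) O) =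
          vw i ^ 2 * (va i ^ 2 + vb i * vc i) +
          minor₁ i * -(vc i * vu i + va i * vw i) + -(vc i * vw i) * minor₂ i by
        simp only [minor₁, minor₂]; ring]
      exact Ideal.add_mem _ (Ideal.add_mem _ (Ideal.mul_mem_left _ _ q₀)
        (Ideal.mul_mem_right _ _ m₁)) (Ideal.mul_mem_left _ _ m₂)
  -- but the unramified component is too small to be minimal over the relations
  subst hQeq
  set s : Finset (MvPowerSeries (LVar ι σ) O) :=
    Finset.univ.image (fun i => hRel (γ i) i) ∪ Finset.univ.image minor₀ ∪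
      Finset.univ.image minor₁ with hs
  have hmin : unramPrime ι σ O ∈ (Ideal.span (s : Set (MvPowerSeries (LVar ι σ) O))).minimalPrimes := by
    refine ⟨⟨inferInstance, Ideal.span_le.mpr fun x hx => ?_⟩, ?_⟩
    · simp only [hs, Finset.coe_union, Finset.coe_image, Finset.coe_univ, Set.image_univ,
        Set.mem_union, Set.mem_range] at hx
      rcases hx with (⟨i, rfl⟩ | ⟨i, rfl⟩) | ⟨i, rfl⟩
      exacts [hle (rel_mem γ i).1, hle (rel_mem γ i).2.1, hle (rel_mem γ i).2.2.1]
    · rintro q ⟨hq, hsq⟩ hqle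
      refine hQ.2 ⟨hq, relIdeal_le fun i => ?_⟩ hqle
      have m : ∀ x ∈ s, x ∈ q := fun x hx => hsq (Ideal.subset_span hx)
      have h0 : hRel (γ i) i ∈ q := m _ (by simp [hs])
      have h1 : minor₀ i ∈ q := m _ (by simp [hs])
      have h2 : minor₁ i ∈ q := m _ (by simp [hs])
      refine ⟨h0, h1, h2, (hq.mem_or_mem ?_).resolve_left fun h => vu_notMem i (hqle h)⟩
      rw [show vu i * minor₂ i = vv i * minor₁ i - vw i * minor₀ i by
        simp only [minor₀, minor₁, minor₂]; ring]
      exact Ideal.sub_mem _ (Ideal.mul_mem_left _ _ h2) (Ideal.mul_mem_left _ _ h1)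
  have h1 := Ideal.height_le_card_of_mem_minimalPrimes_span_finset hmin
  have h2 := three_mul_card_lt_height_unramPrime (ι := ι) (σ := σ) hϖ
  have h3 : s.card ≤ 3 * Fintype.card ι := by
    have key : ∀ f : ι → MvPowerSeries (LVar ι σ) O,
        (Finset.univ.image f).card ≤ Fintype.card ι := fun f => Finset.card_image_le
    refine le_trans (Finset.card_union_le _ _) ?_
    refine le_trans (Nat.add_le_add (Finset.card_union_le _ _) le_rfl) ?_
    have := key fun i => hRel (γ i) i
    have := key minor₀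
    have := key minor₁
    omega
  have h4 := (h2.trans h1).trans (Nat.cast_le.mpr h3)
  norm_cast at h4
  omega

/-- Image of the variables on the generic component. -/
def psiVal : LVar ι σ → MvPowerSeries (QVar ι (ι ⊕ σ)) O
  | Sum.inl (i, j) =>
    ![X (Sum.inl (i, 0)), X (Sum.inl (i, 1)), X (Sum.inl (i, 2)),
      X (Sum.inr (Sum.inl i)) * X (Sum.inl (i, 0)), X (Sum.inr (Sum.inl i)) * X (Sum.inl (i, 1)),
      X (Sum.inr (Sum.inl i)) * X (Sum.inl (i, 2))] j
  | Sum.inr s => X (Sum.inr (Sum.inr s))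

omit [IsDomain O] [IsDiscreteValuationRing O] [Fintype ι] [Fintype σ] in
theorem constantCoeff_psiVal (t : LVar ι σ) : constantCoeff (psiVal (O := O) t) = 0 := by
  rcases t with ⟨i, j⟩ | s
  · fin_cases j <;> simp [psiVal]
  · simp [psiVal]

/-- The parametrisation `(u, v, w) = Z (a, b, c)`. -/
def psi : MvPowerSeries (LVar ι σ) O →ₐ[O] MvPowerSeries (QVar ι (ι ⊕ σ)) O :=
  substAlgHom (hasSubst_of_constantCoeff_zero constantCoeff_psiVal)

/-- The prime of the generic component. -/
def genericPrime (γ : ι → O) : Ideal (MvPowerSeries (LVar ι σ) O) :=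
  (Ideal.span ((hSeries (ρ := ι ⊕ σ) γ) '' ((Finset.univ : Finset ι) : Set ι))).comap psi

/-- The generic prime is prime. -/
theorem isPrime_genericPrime {ϖ : O} (hϖ : Irreducible ϖ) (γ : ι → O) (hγ : ∀ i, ϖ ∣ γ i) :
    (genericPrime (σ := σ) γ).IsPrime ∧ C ϖ ∉ genericPrime (σ := σ) γ := by
  classical
  obtain ⟨h1, h2⟩ := isPrime_span_hSeries (ρ := ι ⊕ σ) hϖ γ hγ Finset.univ
  refine ⟨Ideal.comap_isPrime _ _, fun h => h2 ?_⟩
  have := Ideal.mem_comap.mp h
  rw [psi, substAlgHom_apply, subst_C] at this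
  exact this

omit [IsDomain O] [IsDiscreteValuationRing O] in
/-- The generic prime contains the relation ideal. -/
theorem relIdeal_le_genericPrime (γ : ι → O) : relIdeal γ ≤ genericPrime (σ := σ) γ := by
  refine relIdeal_le fun i => ?_
  have hX : ∀ t, psi (X t : MvPowerSeries (LVar ι σ) O) = psiVal t := fun t => substAlgHom_X _ t
  have hC : ∀ r : O, psi (C r : MvPowerSeries (LVar ι σ) O) =
      (C r : MvPowerSeries (QVar ι (ι ⊕ σ)) O) := fun r => by
    rw [psi, substAlgHom_apply, subst_C]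
  simp only [genericPrime, Ideal.mem_comap]
  refine ⟨?_, ?_, ?_, ?_⟩
  · rw [show psi (hRel (σ := σ) (γ i) i) = hSeries γ i by
      simp [hRel, va, vb, vc, hX, hC, psiVal, hSeries]]
    exact Ideal.subset_span ⟨i, by simp, rfl⟩
  all_goals
    convert Submodule.zero_mem _
    simp [minor₀, minor₁, minor₂, va, vb, vc, vu, vv, vw, hX, psiVal]
    ring

/-- Weight of the variables `u, v, w`. -/
def frobWeight : LVar ι σ → ℕ
  | Sum.inl (_, j) => ![0, 0, 0, 1, 1, 1] j
  | Sum.inr _ => 0

/-- Weight of the variable `Z`. -/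
def zWeight : QVar ι (ι ⊕ σ) → ℕ
  | Sum.inl _ => 0
  | Sum.inr (Sum.inl _) => 1
  | Sum.inr (Sum.inr _) => 0

omit [IsDomain O] [IsDiscreteValuationRing O] [Fintype ι] [Fintype σ] in
theorem psiVal_homogeneous (t : LVar ι σ) :
    (psiVal (O := O) t).IsWeightedHomogeneous zWeight (frobWeight t) := by
  have hX : ∀ t, (X t : MvPowerSeries (QVar ι (ι ⊕ σ)) O).IsWeightedHomogeneous
      zWeight (zWeight t) := by
    intro t d hd
    classical
    rw [coeff_X] at hd
    split_ifs at hd with h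
    · simp [h, weight_single]
    · exact absurd rfl hd
  intro d hd
  rcases t with ⟨i, j⟩ | s
  · have hm : ∀ k : Fin 3, IsWeightedHomogeneous zWeight
        (X (Sum.inr (Sum.inl i)) * X (Sum.inl (i, k)) : MvPowerSeries (QVar ι (ι ⊕ σ)) O) 1 :=
      fun k => IsWeightedHomogeneous.mul (hX _) (hX _)
    fin_cases j
    exacts [hX (Sum.inl (i, 0)) hd, hX (Sum.inl (i, 1)) hd, hX (Sum.inl (i, 2)) hd, hm 0 hd,
      hm 1 hd, hm 2 hd]
  · exact hX (Sum.inr (Sum.inr s)) hd

omit [IsDomain O] [IsDiscreteValuationRing O] [Fintype ι] [Fintype σ] in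
theorem hSeries_homogeneous (γ : ι → O) (i : ι) :
    IsWeightedHomogeneous (zWeight (ι := ι) (σ := σ)) (hSeries (ρ := ι ⊕ σ) γ i) 0 := by
  classical
  intro e he
  by_contra hne
  apply he
  simp only [hSeries, map_sub, map_add, coeff_C, X_def, monomial_pow,
    monomial_mul_monomial, coeff_monomial]
  split_ifs with h1 h2 h3 <;> first
    | (exfalso; apply hne; subst e; simp [weight_single, zWeight])
    | simp

variable [DecidableEq ι]

/-- Back from the generic component: `Z ↦ α` up to a constant, where `α = 2au + bw + cv`. -/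
def piVal (γ : ι → O) : QVar ι (ι ⊕ σ) → MvPowerSeries (LVar ι σ) O
  | Sum.inl (i, j) => ![va i, vb i, vc i] j
  | Sum.inr (Sum.inl i) =>
    C (∏ l ∈ Finset.univ.erase i, 2 * γ l) * (2 * va i * vu i + vb i * vw i + vc i * vv i)
  | Sum.inr (Sum.inr s) => X (Sum.inr s)

omit [IsDomain O] [IsDiscreteValuationRing O] [Fintype σ] in
theorem constantCoeff_piVal (γ : ι → O) (t : QVar ι (ι ⊕ σ)) :
    constantCoeff (piVal γ t) = 0 := by
  rcases t with ⟨i, j⟩ | i | s
  · fin_cases j <;> simp [piVal, va, vb, vc]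
  · simp [piVal, va, vb, vc]
  · simp [piVal]

omit [IsDomain O] [IsDiscreteValuationRing O] in
/-- Modulo the relations, the round trip multiplies `u, v, w` by `∏ 2 γ`. -/
theorem subst_piVal_psiVal (γ : ι → O) (t : LVar ι σ) :
    subst (piVal γ) (psiVal (O := O) t) -
      C ((∏ i, 2 * γ i) ^ frobWeight t) * X t ∈ relIdeal γ := by
  have hpi := hasSubst_of_constantCoeff_zero (constantCoeff_piVal (σ := σ) γ)
  rw [← substAlgHom_apply hpi]
  have hπ : ∀ t, substAlgHom (R := O) hpi (X t : MvPowerSeries (QVar ι (ι ⊕ σ)) O) =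
      piVal γ t := fun t => substAlgHom_X hpi t
  rcases t with ⟨i, j⟩ | s
  · obtain ⟨r₀, r₁, r₂, r₃⟩ := rel_mem (σ := σ) γ i
    have h0 : ∀ (k : Fin 3) (x : MvPowerSeries (LVar ι σ) O),
        ![va i, vb i, vc i] k = x →
        substAlgHom (R := O) hpi (X (Sum.inl (i, k))) - C ((∏ i, 2 * γ i) ^ 0) * x ∈
          relIdeal γ := by
      intro k x hk
      rw [hπ, pow_zero, map_one, one_mul, show piVal γ (Sum.inl (i, k)) = x from hk, sub_self]
      exact Submodule.zero_mem _
    have h1 : ∀ (k : Fin 3) (x y : MvPowerSeries (LVar ι σ) O), ![va i, vb i, vc i] k = x →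
        (2 * va i * vu i + vb i * vw i + vc i * vv i) * x - 2 * C (γ i) * y ∈ relIdeal γ →
        substAlgHom (R := O) hpi (X (Sum.inr (Sum.inl i)) * X (Sum.inl (i, k))) -
          C ((∏ i, 2 * γ i) ^ 1) * y ∈ relIdeal γ := by
      intro k x y hk h
      rw [map_mul, hπ, hπ, show piVal γ (Sum.inl (i, k)) = x from hk,
        show piVal (σ := σ) γ (Sum.inr (Sum.inl i)) =
          C (∏ l ∈ Finset.univ.erase i, 2 * γ l) *
            (2 * va i * vu i + vb i * vw i + vc i * vv i) from rfl,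
        pow_one, ← Finset.prod_erase_mul _ _ (Finset.mem_univ i), map_mul, map_mul, map_ofNat]
      have := Ideal.mul_mem_left _ (C (∏ l ∈ Finset.univ.erase i, 2 * γ l)) h
      convert this using 1
      ring
    fin_cases j
    · exact h0 0 (va i) rfl
    · exact h0 1 (vb i) rfl
    · exact h0 2 (vc i) rfl
    · refine h1 0 (va i) (vu i) rfl ?_
      rw [show ((2 * va i * vu i + vb i * vw i + vc i * vv i) * va i - 2 * C (γ i) * vu i :
          MvPowerSeries (LVar ι σ) O) = 2 * vu i * hRel (γ i) i +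
          vb i * minor₁ i + vc i * minor₀ i by simp only [hRel, minor₀, minor₁]; ring]
      exact Ideal.add_mem _ (Ideal.add_mem _ (Ideal.mul_mem_left _ _ r₀)
        (Ideal.mul_mem_left _ _ r₂)) (Ideal.mul_mem_left _ _ r₁)
    · refine h1 1 (vb i) (vv i) rfl ?_
      rw [show ((2 * va i * vu i + vb i * vw i + vc i * vv i) * vb i - 2 * C (γ i) * vv i :
          MvPowerSeries (LVar ι σ) O) = 2 * vv i * hRel (γ i) i +
          (-(2 * va i)) * minor₀ i + vb i * minor₂ i by
        simp only [hRel, minor₀, minor₂]; ring]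
      exact Ideal.add_mem _ (Ideal.add_mem _ (Ideal.mul_mem_left _ _ r₀)
        (Ideal.mul_mem_left _ _ r₁)) (Ideal.mul_mem_left _ _ r₃)
    · refine h1 2 (vc i) (vw i) rfl ?_
      rw [show ((2 * va i * vu i + vb i * vw i + vc i * vv i) * vc i - 2 * C (γ i) * vw i :
          MvPowerSeries (LVar ι σ) O) = 2 * vw i * hRel (γ i) i +
          (-(2 * va i)) * minor₁ i + (-vc i) * minor₂ i by
        simp only [hRel, minor₁, minor₂]; ring]
      exact Ideal.add_mem _ (Ideal.add_mem _ (Ideal.mul_mem_left _ _ r₀)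
        (Ideal.mul_mem_left _ _ r₂)) (Ideal.mul_mem_left _ _ r₃)
  · rw [show psiVal (O := O) (Sum.inr s : LVar ι σ) = X (Sum.inr (Sum.inr s)) from rfl, hπ,
      show frobWeight (Sum.inr s : LVar ι σ) = 0 from rfl, pow_zero, map_one, one_mul,
      show piVal γ (Sum.inr (Sum.inr s)) = (X (Sum.inr s) : MvPowerSeries (LVar ι σ) O) from rfl,
      sub_self]
    exact Submodule.zero_mem _

omit [IsDiscreteValuationRing O] [IsDomain O] in
theorem component_mul_mem (γ : ι → O) [IsNoetherianRing O] [IsLocalRing O]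
    (f : MvPowerSeries (LVar ι σ) O) (hf : f ∈ genericPrime γ) (d : ℕ) :
    C ((∏ i, 2 * γ i) ^ d) * weightedHomogeneousComponent frobWeight d f ∈ relIdeal γ := by
  classical
  set g := weightedHomogeneousComponent frobWeight d f with hg
  have hps := hasSubst_of_constantCoeff_zero (constantCoeff_psiVal (O := O) (ι := ι) (σ := σ))
  have hpi := hasSubst_of_constantCoeff_zero (constantCoeff_piVal (σ := σ) γ)
  have h1 : subst (psiVal (O := O)) g ∈ Ideal.span
      ((hSeries (ρ := ι ⊕ σ) γ) '' ((Finset.univ : Finset ι) : Set ι)) := by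
    rw [hg, ← component_subst hps psiVal_homogeneous]
    rw [genericPrime, Ideal.mem_comap, psi, substAlgHom_apply] at hf
    obtain ⟨q, hq⟩ := (Submodule.mem_span_image_finset_iff_exists_fun _).mp hf
    rw [← hq, map_sum]
    refine Ideal.sum_mem _ fun i _ => ?_
    rw [smul_eq_mul, ← add_zero d, component_mul_of_homogeneous (hSeries_homogeneous γ i.1)]
    exact Ideal.mul_mem_left _ _ (Ideal.subset_span ⟨i, i.2, rfl⟩)
  have h2 : subst (piVal γ) (subst (psiVal (O := O)) g) ∈ relIdeal γ := by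
    rw [← substAlgHom_apply hpi]
    have hle : Ideal.span ((hSeries (ρ := ι ⊕ σ) γ) '' ((Finset.univ : Finset ι) : Set ι)) ≤
        (relIdeal γ).comap (substAlgHom (R := O) hpi) := by
      rw [Ideal.span_le]
      rintro x ⟨i, -, rfl⟩
      have hC : substAlgHom (R := O) hpi
          (C (γ i) : MvPowerSeries (QVar ι (ι ⊕ σ)) O) = C (γ i) := by
        rw [substAlgHom_apply, subst_C]
      rw [SetLike.mem_coe, Ideal.mem_comap,
        show substAlgHom (R := O) hpi (hSeries (ρ := ι ⊕ σ) γ i) = hRel (γ i) i by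
          simp only [hSeries, hRel, map_sub, map_add, map_pow, map_mul, substAlgHom_X, hC]
          rfl]
      exact (rel_mem γ i).1
    exact hle h1
  set r : LVar ι σ → O := fun t => (∏ i, 2 * γ i) ^ frobWeight t
  have hrX : ∀ t, (r • X : LVar ι σ → MvPowerSeries (LVar ι σ) O) t = C (r t) * X t := fun t => by
    rw [Pi.smul_apply', smul_eq_C_mul]
  have hcong : subst (piVal γ) (subst (psiVal (O := O)) g) - rescale r g ∈ relIdeal γ := by
    rw [subst_comp_subst_apply hps hpi, rescale_eq_subst]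
    refine subst_congr
      (fun t => constantCoeff_subst_eq_zero hpi (constantCoeff_piVal γ) (constantCoeff_psiVal t))
      (fun t => ?_) _ (fun t => ?_) g
    · rw [hrX, map_mul, constantCoeff_X, mul_zero]
    · rw [hrX]; exact subst_piVal_psiVal γ t
  have h3 : rescale r g = C ((∏ i, 2 * γ i) ^ d) * g := by
    ext e
    rw [coeff_rescale, coeff_C_mul]
    by_cases he : coeff e g = 0
    · rw [he, mul_zero, mul_zero]
    · rw [← isWeightedHomogeneous_weightedHomogeneousComponent frobWeight f d he, weight_apply,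
        Finsupp.sum, ← Finset.prod_pow_eq_pow_sum, Finsupp.prod]
      congr 1
      exact Finset.prod_congr rfl fun t _ => by rw [smul_eq_mul, ← pow_mul, mul_comm]
  rw [← h3]
  have := Ideal.sub_mem _ h2 hcong
  rwa [sub_sub_cancel] at this

omit [DecidableEq ι] in
/-- Every prime containing the relations and not the uniformiser contains the generic prime. -/
theorem genericPrime_le {ϖ : O} (hϖ : Irreducible ϖ) (h2 : IsUnit (2 : O)) (γ : ι → O)
    (hγ0 : ∀ i, γ i ≠ 0) {P : Ideal (MvPowerSeries (LVar ι σ) O)} [hP : P.IsPrime]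
    (hI : relIdeal γ ≤ P) (hϖP : C ϖ ∉ P) : genericPrime γ ≤ P := by
  classical
  have hCtP : ∀ d : ℕ, (C ((∏ i, 2 * γ i) ^ d) : MvPowerSeries (LVar ι σ) O) ∉ P := by
    intro d h
    rw [map_pow] at h
    have h' := hP.mem_of_pow_mem d h
    rw [map_prod] at h'
    obtain ⟨i, -, hi⟩ := hP.prod_mem_iff.mp h'
    rw [map_mul] at hi
    rcases hP.mem_or_mem hi with hi | hi
    · exact hP.ne_top (Ideal.eq_top_of_isUnit_mem _ hi (h2.map C))
    · obtain ⟨n, e, he⟩ := IsDiscreteValuationRing.eq_unit_mul_pow_irreducible (hγ0 i) hϖ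
      rw [he, mul_comm, map_mul, map_pow] at hi
      rcases hP.mem_or_mem hi with hi | hi
      · exact hϖP (hP.mem_of_pow_mem n hi)
      · exact hP.ne_top (Ideal.eq_top_of_isUnit_mem _ hi (e.isUnit.map C))
  intro f hf
  refine mem_of_approx P f fun N => ⟨∑ d ∈ Finset.range N,
    weightedHomogeneousComponent frobWeight d f,
    Ideal.sum_mem _ fun d _ => (hP.mem_or_mem (hI (component_mul_mem γ f hf d))).resolve_left
      (hCtP d),
    fun e he => sub_sum_component_coeff _ ?_ N f e he⟩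
  rintro (⟨i, j⟩ | s)
  · fin_cases j <;> simp [frobWeight]
  · simp [frobWeight]

end Finite

end Fermat.Agent.LocalRibet
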