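import Mathlib.RingTheory.Ideal.HasGoingUp
import Mathlib.RingTheory.Ideal.GoingUp
import Mathlib.RingTheory.KrullDimension.NonZeroDivisors
import Mathlib.RingTheory.QuotSMulTop
import Mathlib.RingTheory.Support
import Mathlib.RingTheory.Ideal.AssociatedPrime.Localization
import Mathlib.LinearAlgebra.Charpoly.Basic
import Fermat.Agent.LocalRibet.Components

/-!
# The local algebra of "Ihara avoidance"

If a module over the power series ring is killed by the relations with all constants nonzero
multiples of the uniformiser, is finite and torsion-free over a domain of dimension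
`3|ι| + |σ| + 1`, then its support contains the unramified prime `(ϖ, a, b, c)`; so does the
support of every module with the same reduction modulo the uniformiser.
-/

set_option autoImplicit false

noncomputable section

open MvPowerSeries Finsupp

namespace Fermat.Agent.LocalRibet

/-- Integral extensions by a domain do not lower the dimension. -/
theorem ringKrullDim_le_of_integral {S B : Type*} [CommRing S] [CommRing B] [IsDomain B]
    (f : S →+* B) (hinj : Function.Injective f) (hint : f.IsIntegral) :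
    ringKrullDim S ≤ ringKrullDim B := by
  let : Algebra S B := f.toAlgebra
  have : Algebra.IsIntegral S B := ⟨hint⟩
  refine iSup_le fun l => ?_
  obtain ⟨P, hP, hPl⟩ := Ideal.exists_ideal_over_prime_of_isIntegral_of_isDomain (S := B)
    (RelSeries.head l).asIdeal (by
      intro s hs
      have : s = 0 := hinj (by rw [map_zero]; exact hs)
      rw [this]
      exact Submodule.zero_mem _)
  have : P.LiesOver (RelSeries.head l).asIdeal := ⟨hPl.symm⟩
  obtain ⟨L, hL, -, -⟩ := Ideal.exists_ltSeries_of_hasGoingUp l P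
  rw [← hL]
  exact Order.LTSeries.length_le_krullDim L

/-- A module finite over `S`, on which `S` acts through `L`, is finite over `L`. -/
theorem moduleFinite_of_smul {L S M : Type*} [CommRing L] [CommRing S] [AddCommGroup M]
    [Module L M] [Module S M] [Module.Finite S M]
    (hS : ∀ s : S, ∃ f : L, ∀ m : M, f • m = s • m) : Module.Finite L M := by
  obtain ⟨G, hG⟩ := Module.Finite.fg_top (R := S) (M := M)
  refine ⟨⟨G, top_le_iff.mp fun m hmem => ?_⟩⟩
  clear hmem
  have hm : m ∈ Submodule.span S (G : Set M) := hG ▸ Submodule.mem_top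
  induction hm using Submodule.span_induction with
  | mem x hx => exact Submodule.subset_span hx
  | zero => exact Submodule.zero_mem _
  | add x y _ _ hx hy => exact Submodule.add_mem _ hx hy
  | smul s x _ hx =>
    obtain ⟨f, hf⟩ := hS s
    rw [← hf]
    exact Submodule.smul_mem _ f hx

/-- A minimal prime of the annihilator of a module finite and torsion-free over a domain `S`
gives a quotient at least as big as `S`. -/
theorem ringKrullDim_le_quotient {L S M : Type*} [CommRing L] [IsNoetherianRing L] [CommRing S]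
    [AddCommGroup M] [Module L M] [Module S M] [Module.Finite S M]
    (hS : ∀ s : S, ∃ f : L, ∀ m : M, f • m = s • m)
    (htf : ∀ (s : S) (m : M), s • m = 0 → s = 0 ∨ m = 0)
    {P : Ideal L} (hP : P ∈ (Module.annihilator L M).minimalPrimes) :
    ringKrullDim S ≤ ringKrullDim (L ⧸ P) ∧ ∀ s : S, ∀ f : L,
      (∀ m : M, f • m = s • m) → f ∈ P → s = 0 := by
  have := moduleFinite_of_smul hS
  have := hP.isPrime
  obtain ⟨-, x, hx⟩ := isAssociatedPrime_iff.mp
    (Module.associatedPrimes.minimalPrimes_annihilator_subset_associatedPrimes L M hP)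
  have hx0 : x ≠ 0 := by
    rintro rfl
    exact this.ne_top (hx.trans (by
      rw [Ideal.eq_top_iff_one, Submodule.mem_colon_singleton, one_smul]
      exact Submodule.zero_mem _))
  have hzero : ∀ s : S, ∀ f : L, (∀ m : M, f • m = s • m) → f ∈ P → s = 0 := by
    intro s f hf hfP
    rw [hx, Submodule.mem_colon_singleton, Submodule.mem_bot, hf] at hfP
    exact (htf s x hfP).resolve_right hx0
  refine ⟨?_, hzero⟩
  choose c hc using hS
  have hann : ∀ f g : L, (∀ m : M, f • m = g • m) →
      Ideal.Quotient.mk P f = Ideal.Quotient.mk P g := fun f g h =>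
    Ideal.Quotient.eq.mpr (hP.1.2 (Module.mem_annihilator.mpr fun m => by
      rw [sub_smul, h, sub_self]))
  let φ : S →+* L ⧸ P :=
    { toFun := fun s => Ideal.Quotient.mk P (c s)
      map_one' := by
        rw [← map_one (Ideal.Quotient.mk P)]
        exact hann _ _ fun m => by rw [hc, one_smul, one_smul]
      map_mul' := fun s t => by
        rw [← map_mul]
        exact hann _ _ fun m => by rw [hc, mul_smul, mul_smul, hc, hc]
      map_zero' := by
        rw [← map_zero (Ideal.Quotient.mk P)]
        exact hann _ _ fun m => by rw [hc, zero_smul, zero_smul]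
      map_add' := fun s t => by
        rw [← map_add]
        exact hann _ _ fun m => by rw [hc, add_smul, add_smul, hc, hc] }
  refine ringKrullDim_le_of_integral φ ((injective_iff_map_eq_zero φ).mpr fun s hs =>
    hzero s _ (hc s) (Ideal.Quotient.eq_zero_iff_mem.mp hs)) fun b => ?_
  obtain ⟨l, rfl⟩ := Ideal.Quotient.mk_surjective b
  let Φ : Module.End S M :=
    { toFun := fun m => l • m
      map_add' := smul_add l
      map_smul' := fun s m => by
        rw [RingHom.id_apply, ← hc, ← hc, smul_comm] }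
  obtain ⟨p, hp, hp0⟩ := LinearMap.exists_monic_and_aeval_eq_zero S Φ
  have key : ∀ q : Polynomial S, ∃ g : L, Ideal.Quotient.mk P g =
      Polynomial.eval₂ φ (Ideal.Quotient.mk P l) q ∧
      ∀ m : M, g • m = Polynomial.aeval Φ q m := by
    intro q
    induction q using Polynomial.induction_on' with
    | add q q' hq hq' =>
      obtain ⟨g, hg, hgm⟩ := hq
      obtain ⟨g', hg', hgm'⟩ := hq'
      exact ⟨g + g', by rw [map_add, hg, hg', Polynomial.eval₂_add],
        fun m => by rw [add_smul, hgm, hgm', map_add, LinearMap.add_apply]⟩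
    | monomial n s =>
      refine ⟨c s * l ^ n, by rw [Polynomial.eval₂_monomial, map_mul, map_pow]; rfl, fun m => ?_⟩
      rw [Polynomial.aeval_monomial, Module.End.mul_apply, Module.algebraMap_end_apply, mul_smul,
        hc]
      congr 1
      induction n with
      | zero => rw [pow_zero, pow_zero, one_smul, Module.End.one_apply]
      | succ n ih =>
        rw [pow_succ', pow_succ', mul_smul, Module.End.mul_apply, ← ih]
        rfl
  obtain ⟨g, hg, hgm⟩ := key p
  refine ⟨p, hp, ?_⟩
  rw [← hg, Ideal.Quotient.eq_zero_iff_mem]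
  exact hP.1.2 (Module.mem_annihilator.mpr fun m => by rw [hgm, hp0, LinearMap.zero_apply])

/-- Power series in `r` variables over a discrete valuation ring have dimension more than `r`. -/
theorem le_ringKrullDim_mvPowerSeries (O : Type*) [CommRing O] [IsDomain O]
    [IsDiscreteValuationRing O] (τ : Type*) [Fintype τ] :
    ((Fintype.card τ + 1 : ℕ) : WithBot ℕ∞) ≤ ringKrullDim (MvPowerSeries τ O) := by
  classical
  obtain ⟨ϖ, hϖ⟩ := IsDiscreteValuationRing.exists_irreducible O
  have hlt : killIdeal (O := O) (Finset.univ : Finset τ) <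
      IsLocalRing.maximalIdeal (MvPowerSeries τ O) := by
    have := isPrime_killIdeal (O := O) (Finset.univ : Finset τ)
    refine lt_of_le_of_ne (IsLocalRing.le_maximalIdeal this.ne_top) fun e => ?_
    have h1 : (C ϖ : MvPowerSeries τ O) ∈ killIdeal (Finset.univ : Finset τ) := by
      rw [e, IsLocalRing.mem_maximalIdeal, mem_nonunits_iff, isUnit_iff_constantCoeff,
        constantCoeff_C]
      exact hϖ.not_isUnit
    rw [mem_killIdeal] at h1
    have := h1 0 fun t _ => rfl
    rw [coeff_zero_eq_constantCoeff_apply, constantCoeff_C] at this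
    exact hϖ.ne_zero this
  have h1 := card_lt_height _ _ hlt
  rw [← IsLocalRing.maximalIdeal_height_eq_ringKrullDim, Finset.card_univ] at *
  exact_mod_cast h1

variable {ι σ : Type*} [Fintype ι] [Fintype σ]
variable {O : Type*} [CommRing O] [IsDomain O] [IsDiscreteValuationRing O]

/-- The relations cut out a ring of dimension at most `3|ι| + |σ| + 1`. -/
theorem ringKrullDim_quotient_relIdeal_le {ϖ : O} (hϖ : Irreducible ϖ) (γ : ι → O)
    (hγ : ∀ i, ϖ ∣ γ i) :
    ringKrullDim (MvPowerSeries (LVar ι σ) O ⧸ relIdeal γ) ≤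
      ((3 * Fintype.card ι + Fintype.card σ + 1 : ℕ) : WithBot ℕ∞) := by
  classical
  set R := MvPowerSeries (LVar ι σ) O
  set mk := Ideal.Quotient.mk (relIdeal (σ := σ) γ)
  have hne : relIdeal (σ := σ) γ ≠ ⊤ := by
    obtain ⟨Q, hQ, hle, -, -⟩ := exists_prime_below_unramPrime (σ := σ) hϖ γ hγ
    exact fun h => hQ.ne_top (top_le_iff.mp (h ▸ hle))
  have : Nontrivial (R ⧸ relIdeal γ) := Ideal.Quotient.nontrivial_iff.mpr hne
  have : IsLocalRing (R ⧸ relIdeal γ) :=
    IsLocalRing.of_surjective' mk Ideal.Quotient.mk_surjective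
  have : IsNoetherianRing (R ⧸ relIdeal γ) :=
    isNoetherianRing_of_surjective _ _ mk Ideal.Quotient.mk_surjective
  let gens : Option ((ι × Fin 3) ⊕ σ) → R := fun o => match o with
    | none => C ϖ
    | Option.some (Sum.inl (i, j)) => ![vu i, vv i + vc i, vw i + vb i] j
    | Option.some (Sum.inr s) => X (Sum.inr s)
  have hmin : IsLocalRing.maximalIdeal (R ⧸ relIdeal γ) ∈
      (Ideal.span ((Finset.univ.image fun o => mk (gens o)) : Set (R ⧸ relIdeal γ))).minimalPrimes := by
    refine ⟨⟨inferInstance, Ideal.span_le.mpr fun x hx => ?_⟩, ?_⟩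
    · rw [Finset.coe_image, Set.mem_image] at hx
      obtain ⟨o, -, rfl⟩ := hx
      rw [SetLike.mem_coe, IsLocalRing.mem_maximalIdeal, mem_nonunits_iff]
      intro hu
      obtain ⟨y, hy⟩ := hu.exists_right_inv
      obtain ⟨y, rfl⟩ := Ideal.Quotient.mk_surjective y
      rw [← map_mul, ← map_one mk, Ideal.Quotient.eq] at hy
      have h0 : ∀ z ∈ relIdeal (σ := σ) γ, ϖ ∣ constantCoeff z := by
        intro z hz
        rw [← Ideal.mem_span_singleton]
        refine Ideal.mem_comap.mp (relIdeal_le (q := (Ideal.span {ϖ}).comap constantCoeff)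
          (fun i => ?_) hz)
        simp [hRel, minor₀, minor₁, minor₂, va, vb, vc, vu, vv, vw, Ideal.mem_span_singleton,
          hγ i]
      have hd := h0 _ hy
      have hg : ϖ ∣ constantCoeff (gens o) := by
        rcases o with _ | ⟨i, j⟩ | s
        · simp [gens]
        · fin_cases j <;> simp [gens, vb, vc, vu, vv, vw]
        · simp [gens]
      rw [map_sub, map_mul, map_one] at hd
      refine hϖ.not_isUnit (isUnit_of_dvd_one ?_)
      simpa using dvd_sub (dvd_mul_of_dvd_left hg (constantCoeff y)) hd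
    · rintro q ⟨hq, hgq⟩ -
      have hgen : ∀ o, gens o ∈ q.comap mk := fun o =>
        hgq (Ideal.subset_span (by
          simp only [Finset.coe_image, Set.mem_image]
          exact ⟨o, by simp, rfl⟩))
      have hI : relIdeal γ ≤ q.comap mk := fun x hx => by
        rw [Ideal.mem_comap, Ideal.Quotient.eq_zero_iff_mem.mpr hx]
        exact Submodule.zero_mem _
      have := Ideal.comap_isPrime mk q
      set Q := q.comap mk
      have hϖQ : C ϖ ∈ Q := hgen none
      have hCQ : ∀ c : O, ϖ ∣ c → (C c : R) ∈ Q := fun c ⟨r, hr⟩ => by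
        rw [hr, map_mul]
        exact Ideal.mul_mem_right _ _ hϖQ
      have hvar : ∀ t, (X t : R) ∈ Q := by
        rintro (⟨i, j⟩ | s)
        · obtain ⟨r₀, r₁, r₂, r₃⟩ := rel_mem (σ := σ) γ i
          have hu : vu i ∈ Q := hgen (Option.some (Sum.inl (i, 0)))
          have hv : vv i + vc i ∈ Q := hgen (Option.some (Sum.inl (i, 1)))
          have hw : vw i + vb i ∈ Q := hgen (Option.some (Sum.inl (i, 2)))
          have hq : va i ^ 2 + vb i * vc i ∈ Q := by
            have := Ideal.add_mem Q (hI r₀) (hCQ _ (hγ i))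
            rwa [hRel, sub_add_cancel] at this
          have hac : va i * vc i ∈ Q := by
            rw [show (va i * vc i : R) = va i * (vv i + vc i) - vb i * vu i - minor₀ i by
              simp only [minor₀]; ring]
            exact Ideal.sub_mem _ (Ideal.sub_mem _ (Ideal.mul_mem_left _ _ hv)
              (Ideal.mul_mem_left _ _ hu)) (hI r₁)
          have hab : va i * vb i ∈ Q := by
            rw [show (va i * vb i : R) = va i * (vw i + vb i) - vc i * vu i - minor₁ i by
              simp only [minor₁]; ring]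
            exact Ideal.sub_mem _ (Ideal.sub_mem _ (Ideal.mul_mem_left _ _ hw)
              (Ideal.mul_mem_left _ _ hu)) (hI r₂)
          have hbc : vb i ^ 2 - vc i ^ 2 ∈ Q := by
            rw [show (vb i ^ 2 - vc i ^ 2 : R) = vb i * (vw i + vb i) - vc i * (vv i + vc i) -
              minor₂ i by simp only [minor₂]; ring]
            exact Ideal.sub_mem _ (Ideal.sub_mem _ (Ideal.mul_mem_left _ _ hw)
              (Ideal.mul_mem_left _ _ hv)) (hI r₃)
          have hQ : Q.IsPrime := this
          have ha : va i ∈ Q := by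
            by_contra ha
            have hb := (hQ.mem_or_mem hab).resolve_left ha
            refine ha (hQ.mem_of_pow_mem 2 ?_)
            have := Ideal.sub_mem Q hq (Ideal.mul_mem_right (vc i) Q hb)
            rwa [add_sub_cancel_right] at this
          have hbc' : vb i * vc i ∈ Q := by
            have := Ideal.sub_mem Q hq (Ideal.pow_mem_of_mem Q ha 2 (by norm_num))
            rwa [add_sub_cancel_left] at this
          have hbc2 : vb i ∈ Q ∧ vc i ∈ Q := by
            rcases hQ.mem_or_mem hbc' with h | h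
            · refine ⟨h, hQ.mem_of_pow_mem 2 ?_⟩
              have := Ideal.sub_mem Q (Ideal.pow_mem_of_mem Q h 2 (by norm_num)) hbc
              rwa [sub_sub_cancel] at this
            · refine ⟨hQ.mem_of_pow_mem 2 ?_, h⟩
              have := Ideal.add_mem Q hbc (Ideal.pow_mem_of_mem Q h 2 (by norm_num))
              rwa [sub_add_cancel] at this
          have hv' : vv i ∈ Q := by
            have := Ideal.sub_mem Q hv hbc2.2
            rwa [add_sub_cancel_right] at this
          have hw' : vw i ∈ Q := by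
            have := Ideal.sub_mem Q hw hbc2.1
            rwa [add_sub_cancel_right] at this
          fin_cases j
          exacts [ha, hbc2.1, hbc2.2, hu, hv', hw']
        · exact hgen (Option.some (Sum.inr s))
      intro x hx
      obtain ⟨x, rfl⟩ := Ideal.Quotient.mk_surjective x
      suffices x ∈ Q from this
      rw [show x = (x - C (constantCoeff x)) + C (constantCoeff x) by ring]
      refine Ideal.add_mem _ ?_ (hCQ _ ?_)
      · have h1 := mem_span_X_pow 1 (x - C (constantCoeff x)) fun d hd => by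
          rw [show d = 0 by simpa [degree_eq_zero_iff] using hd, coeff_zero_eq_constantCoeff_apply,
            map_sub, constantCoeff_C, sub_self]
        rw [pow_one] at h1
        exact Ideal.span_le.mpr (by rintro _ ⟨t, rfl⟩; exact hvar t) h1
      · rw [← Ideal.mem_span_singleton, ← hϖ.maximalIdeal_eq, IsLocalRing.mem_maximalIdeal,
          mem_nonunits_iff]
        intro hu
        rw [IsLocalRing.mem_maximalIdeal, mem_nonunits_iff] at hx
        exact hx ((isUnit_iff_constantCoeff.mpr hu).map mk)
  have h := Ideal.height_le_card_of_mem_minimalPrimes_span_finset hmin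
  rw [← IsLocalRing.maximalIdeal_height_eq_ringKrullDim]
  have hcard : (Finset.univ.image fun o => mk (gens o)).card ≤
      3 * Fintype.card ι + Fintype.card σ + 1 := by
    refine Finset.card_image_le.trans (le_of_eq ?_)
    simp [mul_comm]
  exact WithBot.coe_le_coe.mpr (h.trans (Nat.cast_le.mpr hcard))

/-- A module over the relations, finite and torsion-free over a big enough `S`, is supported at
the unramified prime. -/
theorem annihilator_le_unramPrime {ϖ : O} (hϖ : Irreducible ϖ) (h2 : IsUnit (2 : O))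
    {S : Type*} [CommRing S]
    (hdim : ((3 * Fintype.card ι + Fintype.card σ + 1 : ℕ) : WithBot ℕ∞) ≤ ringKrullDim S)
    {M' : Type*} [AddCommGroup M'] [Module (MvPowerSeries (LVar ι σ) O) M'] [Module S M']
    [Module.Finite S M'] [Nontrivial M']
    (hS : ∀ s : S, ∃ f : MvPowerSeries (LVar ι σ) O, ∀ m : M', f • m = s • m)
    (htf : ∀ (s : S) (m : M'), s • m = 0 → s = 0 ∨ m = 0)
    (hϖS : ∃ (f : MvPowerSeries (LVar ι σ) O) (s : S), s ≠ 0 ∧ C ϖ ∣ f ∧ ∀ m : M', f • m = s • m)
    (Γ : ι → Finset O) (hΓ : ∀ i, ∀ c ∈ Γ i, c ≠ 0 ∧ ϖ ∣ c)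
    (hh : ∀ (i : ι) (m : M'), (∏ c ∈ Γ i, hRel (σ := σ) c i) • m = 0)
    (hm₀ : ∀ (i : ι) (m : M'), minor₀ (σ := σ) (O := O) i • m = 0)
    (hm₁ : ∀ (i : ι) (m : M'), minor₁ (σ := σ) (O := O) i • m = 0)
    (hm₂ : ∀ (i : ι) (m : M'), minor₂ (σ := σ) (O := O) i • m = 0) :
    Module.annihilator (MvPowerSeries (LVar ι σ) O) M' ≤ unramPrime ι σ O := by
  classical
  have hfin := moduleFinite_of_smul hS
  set R := MvPowerSeries (LVar ι σ) O
  have hne : Module.annihilator R M' ≠ ⊤ := fun h => by
    obtain ⟨m, hm⟩ := exists_ne (0 : M')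
    have := Module.mem_annihilator.mp (h ▸ Submodule.mem_top : (1 : R) ∈ Module.annihilator R M') m
    exact hm (by rwa [one_smul] at this)
  obtain ⟨P, hP⟩ := Ideal.nonempty_minimalPrimes hne
  have hPp := hP.isPrime
  obtain ⟨hdimP, hzero⟩ := ringKrullDim_le_quotient hS htf hP
  have hϖP : C ϖ ∉ P := fun h => by
    obtain ⟨f, s, hs, ⟨g, rfl⟩, hsm⟩ := hϖS
    exact hs (hzero s _ hsm (Ideal.mul_mem_right g P h))
  have hex : ∀ i, ∃ c ∈ Γ i, hRel (σ := σ) c i ∈ P := fun i =>
    hPp.prod_mem_iff.mp (hP.1.2 (Module.mem_annihilator.mpr (hh i)))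
  choose γ hγΓ hγP using hex
  have hγ0 : ∀ i, γ i ≠ 0 := fun i => (hΓ i _ (hγΓ i)).1
  have hγd : ∀ i, ϖ ∣ γ i := fun i => (hΓ i _ (hγΓ i)).2
  have hIP : relIdeal γ ≤ P := relIdeal_le fun i =>
    ⟨hγP i, hP.1.2 (Module.mem_annihilator.mpr (hm₀ i)),
      hP.1.2 (Module.mem_annihilator.mpr (hm₁ i)), hP.1.2 (Module.mem_annihilator.mpr (hm₂ i))⟩
  obtain ⟨hKp, -⟩ := isPrime_genericPrime (σ := σ) hϖ γ hγd
  have hKP := genericPrime_le hϖ h2 γ hγ0 hIP hϖP
  -- `P` is minimal over the relations
  have hPK : P = genericPrime γ := by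
    refine le_antisymm ?_ hKP
    by_contra hnle
    obtain ⟨a, haP, haK⟩ := SetLike.not_le_iff_exists.mp hnle
    have h1 : ringKrullDim (R ⧸ P) + 1 ≤ ringKrullDim (R ⧸ genericPrime γ) :=
      ringKrullDim_succ_le_of_surjective (Ideal.Quotient.factor hKP)
        (Ideal.Quotient.factor_surjective hKP) (r := Ideal.Quotient.mk _ a)
        (mem_nonZeroDivisors_iff_ne_zero.mpr fun h0 => haK (Ideal.Quotient.eq_zero_iff_mem.mp h0))
        (by rw [Ideal.Quotient.factor_mk]; exact Ideal.Quotient.eq_zero_iff_mem.mpr haP)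
    have h2' : ringKrullDim (R ⧸ genericPrime γ) ≤ ringKrullDim (R ⧸ relIdeal γ) :=
      ringKrullDim_le_of_surjective (Ideal.Quotient.factor (relIdeal_le_genericPrime γ))
        (Ideal.Quotient.factor_surjective _)
    have h3 := ringKrullDim_quotient_relIdeal_le (σ := σ) hϖ γ hγd
    have h4 : ((3 * Fintype.card ι + Fintype.card σ + 1 : ℕ) : WithBot ℕ∞) + 1 ≤
        ((3 * Fintype.card ι + Fintype.card σ + 1 : ℕ) : WithBot ℕ∞) := by
      calc _ ≤ ringKrullDim (R ⧸ P) + 1 := by gcongr; exact hdim.trans hdimP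
        _ ≤ _ := h1.trans (h2'.trans h3)
    have : 3 * Fintype.card ι + Fintype.card σ + 1 + 1 ≤
        3 * Fintype.card ι + Fintype.card σ + 1 := by exact_mod_cast h4
    omega
  -- the generic prime lies in the unramified one
  obtain ⟨Q, hQ, hIQ, hQle, hϖQ⟩ := exists_prime_below_unramPrime (σ := σ) hϖ γ hγd
  have hKQ := genericPrime_le hϖ h2 γ hγ0 (hP := hQ) hIQ hϖQ
  exact hP.1.2.trans (hPK.le.trans (hKQ.trans hQle))

/-- **Ihara avoidance, local algebra**: the support of `M` contains the unramified prime. -/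
theorem avoidance {ϖ : O} (hϖ : Irreducible ϖ) (h2 : IsUnit (2 : O))
    {S : Type*} [CommRing S]
    (hdim : ((3 * Fintype.card ι + Fintype.card σ + 1 : ℕ) : WithBot ℕ∞) ≤ ringKrullDim S)
    {M M' : Type*} [AddCommGroup M] [Module (MvPowerSeries (LVar ι σ) O) M]
    [Module.Finite (MvPowerSeries (LVar ι σ) O) M]
    [AddCommGroup M'] [Module (MvPowerSeries (LVar ι σ) O) M'] [Module S M'] [Module.Finite S M']
    [Nontrivial M']
    (hS : ∀ s : S, ∃ f : MvPowerSeries (LVar ι σ) O, ∀ m : M', f • m = s • m)
    (htf : ∀ (s : S) (m : M'), s • m = 0 → s = 0 ∨ m = 0)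
    (hϖS : ∃ s : S, s ≠ 0 ∧ ∀ m : M', (C ϖ : MvPowerSeries (LVar ι σ) O) • m = s • m)
    (Γ : ι → Finset O) (hΓ : ∀ i, ∀ c ∈ Γ i, c ≠ 0 ∧ ϖ ∣ c)
    (hh : ∀ (i : ι) (m : M'), (∏ c ∈ Γ i, hRel (σ := σ) c i) • m = 0)
    (hm₀ : ∀ (i : ι) (m : M'), minor₀ (σ := σ) (O := O) i • m = 0)
    (hm₁ : ∀ (i : ι) (m : M'), minor₁ (σ := σ) (O := O) i • m = 0)
    (hm₂ : ∀ (i : ι) (m : M'), minor₂ (σ := σ) (O := O) i • m = 0)
    (e : QuotSMulTop (C ϖ : MvPowerSeries (LVar ι σ) O) M ≃ₗ[MvPowerSeries (LVar ι σ) O]
      QuotSMulTop (C ϖ : MvPowerSeries (LVar ι σ) O) M')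
    {F : MvPowerSeries (LVar ι σ) O} (hF : F ∉ unramPrime ι σ O) :
    ∃ m : M, F • m ≠ 0 := by
  classical
  have hfin := moduleFinite_of_smul hS
  set R := MvPowerSeries (LVar ι σ) O
  have hann' : Module.annihilator R M' ≤ unramPrime ι σ O :=
    annihilator_le_unramPrime hϖ h2 hdim hS htf
      (let ⟨s, hs, hsm⟩ := hϖS; ⟨C ϖ, s, hs, dvd_rfl, hsm⟩) Γ hΓ hh hm₀ hm₁ hm₂
  let pt : PrimeSpectrum R := ⟨unramPrime ι σ O, inferInstance⟩
  have hsupp : pt ∈ Module.support R M' := by
    rw [Module.support_eq_zeroLocus]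
    exact hann'
  have hsupp' : pt ∈ Module.support R (QuotSMulTop (C ϖ : R) M') := by
    rw [Module.support_quotSMulTop]
    refine ⟨hsupp, ?_⟩
    rw [PrimeSpectrum.mem_zeroLocus, Set.singleton_subset_iff]
    exact C_mem_unramPrime hϖ
  rw [← e.support_eq, Module.support_quotSMulTop] at hsupp'
  have hann : Module.annihilator R M ≤ unramPrime ι σ O := by
    have := hsupp'.1
    rwa [Module.support_eq_zeroLocus] at this
  by_contra! hno
  exact hF (hann (Module.mem_annihilator.mpr hno))

end Fermat.Agent.LocalRibet
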