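import Fermat.Agent.LevelLowering.Avoid.Setup
import Fermat.Agent.LocalRibet.Avoidance
import Mathlib.LinearAlgebra.Matrix.ToLin
import Mathlib.RingTheory.MvPowerSeries.NoZeroDivisors

/-!
# Ihara avoidance in matrix form

The local statement `Avoidance` for a complete or arbitrary discrete valuation ring of
characteristic zero with finite residue field and `2` invertible.  Characteristic zero links the
constants of the coordinate ring, which act through an arbitrary ring homomorphism, with the
scalars.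
-/

set_option autoImplicit false

noncomputable section

open MvPowerSeries IsLocalRing

namespace Fermat.Agent.LocalRibet

open Fermat.Agent.LevelLowering.Avoid

/-- `A ^ d` seen as a module through a matrix representation. -/
def MatAct {L A : Type*} [CommRing L] [CommRing A] {d : ℕ}
    (_ρ : L →+* Matrix (Fin d) (Fin d) A) : Type _ := Fin d → A

section MatAct

variable {L A : Type*} [CommRing L] [CommRing A] {d : ℕ} (ρ : L →+* Matrix (Fin d) (Fin d) A)

instance : AddCommGroup (MatAct ρ) := inferInstanceAs (AddCommGroup (Fin d → A))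

instance : Module A (MatAct ρ) := inferInstanceAs (Module A (Fin d → A))

instance : Module.Finite A (MatAct ρ) := inferInstanceAs (Module.Finite A (Fin d → A))

/-- The tautological map to vectors. -/
def MatAct.vec (m : MatAct ρ) : Fin d → A := m

instance : Module L (MatAct ρ) where
  smul f m := Matrix.mulVec (ρ f) (MatAct.vec ρ m)
  one_smul m := by
    change Matrix.mulVec (ρ 1) _ = _
    rw [map_one, Matrix.one_mulVec]
    rfl
  mul_smul f g m := by
    change Matrix.mulVec (ρ (f * g)) _ = Matrix.mulVec (ρ f) (Matrix.mulVec (ρ g) _)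
    rw [map_mul, Matrix.mulVec_mulVec]
  smul_zero f := Matrix.mulVec_zero _
  smul_add f m n := Matrix.mulVec_add _ _ _
  add_smul f g m := by
    change Matrix.mulVec (ρ (f + g)) _ = Matrix.mulVec (ρ f) _ + Matrix.mulVec (ρ g) _
    rw [map_add, Matrix.add_mulVec]
  zero_smul m := by
    change Matrix.mulVec (ρ 0) _ = _
    rw [map_zero, Matrix.zero_mulVec]
    rfl

theorem MatAct.smul_of_scalar {f : L} {a : A} (h : ρ f = Matrix.diagonal fun _ => a)
    (m : MatAct ρ) : f • m = a • m := by
  change Matrix.mulVec (ρ f) (MatAct.vec ρ m) = a • MatAct.vec ρ m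
  funext i
  rw [h, Matrix.mulVec_diagonal]
  rfl

theorem MatAct.smul_of_zero {f : L} (h : ρ f = 0) (m : MatAct ρ) : f • m = 0 := by
  change Matrix.mulVec (ρ f) (MatAct.vec ρ m) = 0
  rw [h, Matrix.zero_mulVec]

/-- The module is non trivial in positive dimension. -/
theorem MatAct.nontrivial [Nontrivial A] (hd : 0 < d) : Nontrivial (MatAct ρ) :=
  ⟨⟨(fun _ => 1 : Fin d → A), (0 : Fin d → A),
    fun h => one_ne_zero (congrFun h ⟨0, hd⟩)⟩⟩

end MatAct

/-- **Ihara avoidance, local form.** -/
theorem avoidance_matrix (O : Type) [CommRing O] [IsDomain O] [IsDiscreteValuationRing O]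
    [CharZero O] [Finite (ResidueField O)] (h2 : IsUnit (2 : O))
    (ι σ : Type) [Fintype ι] [Fintype σ] : Avoidance O ι σ := by
  intro ϖ hmax Γ hΓ r d hr hd ρ ρ' hs hs' hcong hrel
  classical
  set L := CoordRing O ι σ
  set S := MvPowerSeries (Fin r) O
  intro F hF hρF
  have hϖ : Irreducible ϖ := (IsDiscreteValuationRing.irreducible_iff_uniformizer ϖ).mpr hmax
  -- a natural number in the maximal ideal
  set p := ringChar (ResidueField O)
  have hp : p.Prime := CharP.char_is_prime (ResidueField O) p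
  have hpm : (p : O) ∈ maximalIdeal O := by
    rw [← residue_eq_zero_iff, map_natCast]
    exact CharP.cast_eq_zero _ p
  have hp0 : (p : O) ≠ 0 := Nat.cast_ne_zero.mpr hp.ne_zero
  obtain ⟨e, u, hu⟩ := IsDiscreteValuationRing.eq_unit_mul_pow_irreducible hp0 hϖ
  have he : e ≠ 0 := by
    rintro rfl
    rw [pow_zero, mul_one] at hu
    exact (mem_maximalIdeal _).mp hpm (hu ▸ u.isUnit)
  have hpS : (p : S) ≠ 0 := by
    rw [← map_natCast (C (σ := Fin r) (R := O))]
    intro h
    exact hp0 (by simpa using congrArg constantCoeff h)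
  have hnat : ∀ n : ℕ, ρ' (n : L) = Matrix.diagonal fun _ => (n : S) := fun n => by
    rw [map_natCast]
    rfl
  have := NoZeroDivisors.to_isDomain S
  have hnt := MatAct.nontrivial ρ' hd
  have hsm : ∀ s : S, ∃ f : L, ∀ m : MatAct ρ', f • m = s • m := fun s => by
    obtain ⟨f, hf⟩ := hs' s
    exact ⟨f, MatAct.smul_of_scalar ρ' hf⟩
  have htf : ∀ (s : S) (m : MatAct ρ'), s • m = 0 → s = 0 ∨ m = 0 := fun s m h => by
    by_cases hs0 : s = 0
    · exact Or.inl hs0
    · refine Or.inr (funext fun i => (mul_eq_zero.mp ?_).resolve_left hs0)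
      exact congrFun h i
  have hkill : ∀ f : L, ρ' f = 0 → ∀ m : MatAct ρ', f • m = 0 := fun f h =>
    MatAct.smul_of_zero ρ' h
  have hprod : ∀ i, (∏ c ∈ Γ i, hRel (σ := σ) c i) = ∏ c ∈ Γ i, eigenRel i c := fun i =>
    Finset.prod_congr rfl fun c _ => by simp only [hRel, eigenRel, va, vb, vc, coord, sq]
  have hdim : ((3 * Fintype.card ι + Fintype.card σ + 1 : ℕ) : WithBot ℕ∞) ≤ ringKrullDim S := by
    have h := le_ringKrullDim_mvPowerSeries O (Fin r)
    rw [Fintype.card_fin] at h
    rw [← hr]
    exact h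
  have hann := annihilator_le_unramPrime (M' := MatAct ρ') hϖ h2 hdim hsm htf
    ⟨(p : L), (p : S), hpS, ⟨C (↑u * ϖ ^ (e - 1)), by
        rw [← map_natCast (C (σ := Coord ι σ) (R := O)), ← map_mul, hu]
        congr 1
        rw [← mul_assoc, mul_comm ϖ (u : O), mul_assoc, ← pow_succ', Nat.sub_add_cancel
          (Nat.one_le_iff_ne_zero.mpr he)]⟩,
      MatAct.smul_of_scalar ρ' (hnat p)⟩
    Γ (fun i c hc => ⟨(hΓ i c hc).2, by
      rw [← Ideal.mem_span_singleton, ← hmax]; exact (hΓ i c hc).1⟩)
    (fun i => by rw [hprod]; exact hkill _ (hrel i).1)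
    (fun i => hkill _ (hrel i).2.1) (fun i => hkill _ (hrel i).2.2.1)
    (fun i => hkill _ (hrel i).2.2.2)
  -- the scalar `ϖ` acts through an element of the unramified prime
  obtain ⟨fπ, hfπ⟩ := hs' (C ϖ : S)
  obtain ⟨g, hg⟩ := hs' (C (u : O) : S)
  obtain ⟨g', hg'⟩ := hs' (C ((u⁻¹ : Oˣ) : O) : S)
  have hmem : ∀ f : L, ρ' f = 0 → f ∈ unramPrime ι σ O := fun f h =>
    hann (Module.mem_annihilator.mpr (MatAct.smul_of_zero ρ' h))
  have hP0 : (unramPrime ι σ O).IsPrime := inferInstance
  have hgP : g ∉ unramPrime ι σ O := fun h => hP0.one_notMem (by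
    have h1 : g * g' - 1 ∈ unramPrime ι σ O := hmem _ (by
      rw [map_sub, map_mul, map_one, hg, hg', Matrix.diagonal_mul_diagonal, sub_eq_zero,
        ← Matrix.diagonal_one]
      congr 1
      funext
      rw [← map_mul, Units.mul_inv, map_one])
    have := Ideal.sub_mem _ (Ideal.mul_mem_right g' _ h) h1
    rwa [sub_sub_cancel] at this)
  have hfP : fπ ∈ unramPrime ι σ O := by
    have h1 : g * fπ ^ e - (p : L) ∈ unramPrime ι σ O := hmem _ (by
      rw [map_sub, map_mul, map_pow, hg, hfπ, Matrix.diagonal_pow, Matrix.diagonal_mul_diagonal,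
        hnat, sub_eq_zero]
      congr 1
      funext
      rw [Pi.pow_apply, ← map_pow, ← map_mul, ← hu, map_natCast])
    have h2 : (p : L) ∈ unramPrime ι σ O := by
      rw [← map_natCast (C (σ := Coord ι σ) (R := O)), hu, map_mul, map_pow]
      exact Ideal.mul_mem_left _ _ (Ideal.pow_mem_of_mem _ (C_mem_unramPrime hϖ) e
        (Nat.pos_of_ne_zero he))
    have h3 := Ideal.add_mem _ h1 h2
    rw [sub_add_cancel] at h3
    exact hP0.mem_of_pow_mem e ((hP0.mem_or_mem h3).resolve_left hgP)
  -- `F` kills the reduction of the supported module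
  let pt : PrimeSpectrum L := ⟨unramPrime ι σ O, inferInstance⟩
  have := moduleFinite_of_smul hsm
  have hsupp : pt ∈ Module.support L (QuotSMulTop fπ (MatAct ρ')) := by
    rw [Module.support_quotSMulTop, Module.support_eq_zeroLocus]
    exact ⟨hann, by
      rw [PrimeSpectrum.mem_zeroLocus, Set.singleton_subset_iff]
      exact hfP⟩
  rw [Module.support_eq_zeroLocus] at hsupp
  have hFann : F ∈ Module.annihilator L (QuotSMulTop fπ (MatAct ρ')) := by
    rw [Module.mem_annihilator]
    intro x
    obtain ⟨m, rfl⟩ := Submodule.Quotient.mk_surjective _ x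
    rw [← Submodule.Quotient.mk_smul, Submodule.Quotient.mk_eq_zero]
    have hd : ∀ a b, (C ϖ : S) ∣ ρ' F a b := fun a b => by
      have h := hcong F a b
      rw [hρF, Ideal.mem_span_singleton, Matrix.zero_apply, zero_sub] at h
      exact (dvd_neg).mp h
    choose N hN using hd
    refine (Submodule.mem_smul_pointwise_iff_exists _ _ _).mpr
      ⟨(Matrix.mulVec (Matrix.of N) (MatAct.vec ρ' m) : Fin d → S), Submodule.mem_top, ?_⟩
    refine (MatAct.smul_of_scalar ρ' hfπ (Matrix.mulVec (Matrix.of N) (MatAct.vec ρ' m))).trans ?_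
    change (C ϖ : S) • Matrix.mulVec (Matrix.of N) _ = Matrix.mulVec (ρ' F) _
    rw [← Matrix.smul_mulVec]
    congr 1
    ext a b : 1
    rw [Matrix.smul_apply, Matrix.of_apply, smul_eq_mul, hN]
  refine hF ?_
  have hle : unramPrime ι σ O ≤ specialIdeal ι σ ϖ := by
    refine unramPrime_le hϖ (Ideal.subset_span (Set.mem_insert _ _)) fun i => ⟨?_, ?_, ?_⟩ <;>
      refine Ideal.subset_span (Set.mem_insert_of_mem _ ⟨i, ?_⟩)
    exacts [Or.inl rfl, Or.inr (Or.inl rfl), Or.inr (Or.inr rfl)]
  exact hle (hsupp hFann)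

end Fermat.Agent.LocalRibet
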